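import Mathlib
import Fermat.Prelude.Def_CuspForm_IntegralStructure

set_option autoImplicit false

namespace Fermat.Agent.S23

open UpperHalfPlane hiding I
open Complex Filter ModularForm ModularFormClass
open scoped MatrixGroups ModularForm Topology Manifold

noncomputable section

/-- `1`-periodic, holomorphic, bounded at `i∞`. -/
structure PB (g : ℍ → ℂ) : Prop where
  per : Function.Periodic (g ∘ UpperHalfPlane.ofComplex) 1
  holo : MDiff g
  bdd : IsBoundedAtImInfty g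

namespace PB

variable {g g₁ g₂ : ℍ → ℂ}

theorem analytic (hg : PB g) : AnalyticAt ℂ (cuspFunction 1 g) 0 :=
  UpperHalfPlane.analyticAt_cuspFunction_zero one_pos (by simpa using hg.per) hg.holo hg.bdd

theorem const (c : ℂ) : PB (fun _ => c) where
  per := fun _ => rfl
  holo := mdifferentiable_const
  bdd := Filter.const_boundedAtFilter _ c

theorem zero : PB (0 : ℍ → ℂ) := const 0

theorem one : PB (1 : ℍ → ℂ) := const 1

theorem add (h₁ : PB g₁) (h₂ : PB g₂) : PB (g₁ + g₂) where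
  per := h₁.per.add h₂.per
  holo := h₁.holo.add h₂.holo
  bdd := h₁.bdd.add h₂.bdd

theorem mul (h₁ : PB g₁) (h₂ : PB g₂) : PB (g₁ * g₂) where
  per := h₁.per.mul h₂.per
  holo := h₁.holo.mul h₂.holo
  bdd := h₁.bdd.mul h₂.bdd

theorem smul (c : ℂ) (h : PB g) : PB (c • g) := by
  have : c • g = (fun _ => c) * g := by ext z; simp
  rw [this]; exact (const c).mul h

theorem neg (h : PB g) : PB (-g) := by
  have : -g = (-1 : ℂ) • g := by ext z; simp
  rw [this]; exact h.smul _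

theorem sub (h₁ : PB g₁) (h₂ : PB g₂) : PB (g₁ - g₂) := by
  rw [sub_eq_add_neg]; exact h₁.add h₂.neg

theorem pow (h : PB g) (n : ℕ) : PB (g ^ n) := by
  induction n with
  | zero => simpa using one
  | succ n ih => rw [pow_succ]; exact ih.mul h

theorem sum {ι : Type*} (s : Finset ι) {G : ι → ℍ → ℂ} (h : ∀ i ∈ s, PB (G i)) :
    PB (∑ i ∈ s, G i) := by
  classical
  induction s using Finset.induction_on with
  | empty => simpa using zero
  | insert a s ha ih =>
    rw [Finset.sum_insert ha]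
    exact (h a (Finset.mem_insert_self a s)).add (ih fun i hi => h i (Finset.mem_insert_of_mem hi))

theorem prod {ι : Type*} (s : Finset ι) {G : ι → ℍ → ℂ} (h : ∀ i ∈ s, PB (G i)) :
    PB (∏ i ∈ s, G i) := by
  classical
  induction s using Finset.induction_on with
  | empty => simpa using one
  | insert a s ha ih =>
    rw [Finset.prod_insert ha]
    exact (h a (Finset.mem_insert_self a s)).mul (ih fun i hi => h i (Finset.mem_insert_of_mem hi))

theorem of_modularForm {F : Type*} [FunLike F ℍ ℂ] {Γ : Subgroup (GL (Fin 2) ℝ)} {k : ℤ}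
    [ModularFormClass F Γ k] (h1 : (1 : ℝ) ∈ Γ.strictPeriods) (f : F) : PB (f : ℍ → ℂ) where
  per := by simpa using SlashInvariantFormClass.periodic_comp_ofComplex f h1
  holo := ModularFormClass.holo f
  bdd := by
    have : Fact (IsCusp OnePoint.infty Γ) := ⟨Γ.isCusp_of_mem_strictPeriods one_pos h1⟩
    exact ModularFormClass.bdd_at_infty f

end PB

section qexp

variable {g g₁ g₂ : ℍ → ℂ}

theorem qExp_add (h₁ : PB g₁) (h₂ : PB g₂) :
    qExpansion 1 (g₁ + g₂) = qExpansion 1 g₁ + qExpansion 1 g₂ :=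
  UpperHalfPlane.qExpansion_add h₁.analytic h₂.analytic

theorem qExp_mul (h₁ : PB g₁) (h₂ : PB g₂) :
    qExpansion 1 (g₁ * g₂) = qExpansion 1 g₁ * qExpansion 1 g₂ :=
  UpperHalfPlane.qExpansion_mul h₁.analytic h₂.analytic

theorem qExp_smul (c : ℂ) (h : PB g) :
    qExpansion 1 (c • g) = c • qExpansion 1 g :=
  UpperHalfPlane.qExpansion_smul h.analytic c

theorem qExp_sub (h₁ : PB g₁) (h₂ : PB g₂) :
    qExpansion 1 (g₁ - g₂) = qExpansion 1 g₁ - qExpansion 1 g₂ :=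
  UpperHalfPlane.qExpansion_sub h₁.analytic h₂.analytic

theorem qExp_pow (h : PB g) (n : ℕ) :
    qExpansion 1 (g ^ n) = qExpansion 1 g ^ n := by
  induction n with
  | zero => simpa using UpperHalfPlane.qExpansion_one 1
  | succ n ih => rw [pow_succ, pow_succ, qExp_mul (h.pow n) h, ih]

theorem qExp_sum {ι : Type*} (s : Finset ι) {G : ι → ℍ → ℂ} (h : ∀ i ∈ s, PB (G i)) :
    qExpansion 1 (∑ i ∈ s, G i) = ∑ i ∈ s, qExpansion 1 (G i) := by
  classical
  induction s using Finset.induction_on with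
  | empty => simpa using UpperHalfPlane.qExpansion_zero 1
  | insert a s ha ih =>
    rw [Finset.sum_insert ha, Finset.sum_insert ha,
      qExp_add (h a (Finset.mem_insert_self a s))
        (PB.sum s fun i hi => h i (Finset.mem_insert_of_mem hi)),
      ih fun i hi => h i (Finset.mem_insert_of_mem hi)]

theorem PB.eq_zero_of_qExp (h : PB g) (h0 : qExpansion 1 g = 0) : g = 0 :=
  (UpperHalfPlane.qExpansion_eq_zero_iff one_pos (by simpa using h.per) h.holo h.bdd).mp h0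

theorem PB.qExp_ne_zero (h : PB g) (h0 : g ≠ 0) : qExpansion 1 g ≠ 0 :=
  fun h' => h0 (h.eq_zero_of_qExp h')

end qexp

section twist

/-- `g` has a `σ`-twist (on `q`-expansions) which is weight-`k` invariant under `Γ₀(N)`. -/
def Tw (σ : ℂ →+* ℂ) (N : ℕ) (k : ℤ) (g : ℍ → ℂ) : Prop :=
  PB g ∧ ∃ g' : ℍ → ℂ, PB g' ∧
    (∀ γ : SL(2, ℤ), γ ∈ CongruenceSubgroup.Gamma0 N → g' ∣[k] γ = g') ∧
    qExpansion 1 g' = (qExpansion 1 g).map σ

variable {σ : ℂ →+* ℂ} {N : ℕ} {k k₁ k₂ : ℤ} {g g₁ g₂ : ℍ → ℂ}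

theorem Tw.pb (h : Tw σ N k g) : PB g := h.1

theorem Tw.congr (h : Tw σ N k₁ g) (hk : k₁ = k₂) : Tw σ N k₂ g := hk ▸ h

theorem Tw.add (h₁ : Tw σ N k g₁) (h₂ : Tw σ N k g₂) : Tw σ N k (g₁ + g₂) := by
  obtain ⟨p₁, g₁', p₁', i₁, e₁⟩ := h₁
  obtain ⟨p₂, g₂', p₂', i₂, e₂⟩ := h₂
  refine ⟨p₁.add p₂, g₁' + g₂', p₁'.add p₂', fun γ hγ => ?_, ?_⟩
  · rw [SlashAction.add_slash, i₁ γ hγ, i₂ γ hγ]
  · rw [qExp_add p₁' p₂', qExp_add p₁ p₂, map_add, e₁, e₂]

theorem Tw.mul (h₁ : Tw σ N k₁ g₁) (h₂ : Tw σ N k₂ g₂) : Tw σ N (k₁ + k₂) (g₁ * g₂) := by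
  obtain ⟨p₁, g₁', p₁', i₁, e₁⟩ := h₁
  obtain ⟨p₂, g₂', p₂', i₂, e₂⟩ := h₂
  refine ⟨p₁.mul p₂, g₁' * g₂', p₁'.mul p₂', fun γ hγ => ?_, ?_⟩
  · rw [ModularForm.mul_slash_SL2, i₁ γ hγ, i₂ γ hγ]
  · rw [qExp_mul p₁' p₂', qExp_mul p₁ p₂, map_mul, e₁, e₂]

theorem Tw.smul (c : ℂ) (h : Tw σ N k g) : Tw σ N k (c • g) := by
  obtain ⟨p, g', p', i, e⟩ := h
  refine ⟨p.smul c, σ c • g', p'.smul _, fun γ hγ => ?_, ?_⟩
  · rw [ModularForm.SL_smul_slash, i γ hγ]
  · rw [qExp_smul _ p', qExp_smul _ p, e]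
    ext n
    simp

theorem Tw.zero : Tw σ N k (0 : ℍ → ℂ) :=
  ⟨PB.zero, 0, PB.zero, fun γ _ => SlashAction.zero_slash _ _, by
    rw [UpperHalfPlane.qExpansion_zero]; simp⟩

theorem Tw.sum {ι : Type*} (s : Finset ι) {G : ι → ℍ → ℂ} (h : ∀ i ∈ s, Tw σ N k (G i)) :
    Tw σ N k (∑ i ∈ s, G i) := by
  classical
  induction s using Finset.induction_on with
  | empty => simpa using Tw.zero
  | insert a s ha ih =>
    rw [Finset.sum_insert ha]
    exact (h a (Finset.mem_insert_self a s)).add (ih fun i hi => h i (Finset.mem_insert_of_mem hi))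

theorem Tw.one : Tw σ N 0 (1 : ℍ → ℂ) :=
  ⟨PB.one, 1, PB.one, fun γ _ => by
      ext z
      simp [ModularForm.SL_slash_apply], by
    rw [UpperHalfPlane.qExpansion_one]; simp⟩

theorem Tw.pow (h : Tw σ N k g) (n : ℕ) : Tw σ N (n * k) (g ^ n) := by
  induction n with
  | zero => simpa using Tw.one
  | succ n ih =>
    rw [pow_succ]
    exact (ih.mul h).congr (by push_cast; ring)

end twist

end

end Fermat.Agent.S23
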