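import Mathlib
import Fermat.Agent.S23.Basic

set_option autoImplicit false

namespace Fermat.Agent.S23

open UpperHalfPlane hiding I
open Complex Filter ModularForm ModularFormClass SlashInvariantForm
open scoped MatrixGroups ModularForm Topology Manifold

noncomputable section

/-- The coset space `SL(2,ℤ) / Γ₀(N)` (as used by Mathlib's `quotientFunc`, norm and trace). -/
abbrev Q0 (N : ℕ) : Type :=
  𝒮ℒ ⧸ ((CongruenceSubgroup.Gamma0 N : Subgroup (GL (Fin 2) ℝ)).subgroupOf 𝒮ℒ)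

instance (N : ℕ) [NeZero N] : Fintype (Q0 N) := Fintype.ofFinite _

/-- Elementary symmetric function of a family of functions indexed by the cosets. -/
def es {N : ℕ} [NeZero N] (A : Q0 N → ℍ → ℂ) (r : ℕ) : ℍ → ℂ :=
  ∑ S ∈ (Finset.univ : Finset (Q0 N)).powersetCard r, ∏ q ∈ S, A q

theorem es_apply {N : ℕ} [NeZero N] (A : Q0 N → ℍ → ℂ) (r : ℕ) (z : ℍ) :
    es A r z = ∑ S ∈ (Finset.univ : Finset (Q0 N)).powersetCard r, ∏ q ∈ S, A q z := by
  simp [es, Finset.sum_apply, Finset.prod_apply]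

section general

variable {N : ℕ} [NeZero N] {k : ℤ} {F : Type*} [FunLike F ℍ ℂ]

theorem es_slash [SlashInvariantFormClass F (CongruenceSubgroup.Gamma0 N : Subgroup (GL (Fin 2) ℝ)) k]
    (u : F) (r : ℕ) {h : GL (Fin 2) ℝ} (hh : h ∈ 𝒮ℒ) :
    es (quotientFunc u : Q0 N → ℍ → ℂ) r ∣[(r : ℤ) * k] h = es (quotientFunc u) r := by
  classical
  unfold es
  rw [SlashAction.sum_slash]
  have key : ∀ S ∈ (Finset.univ : Finset (Q0 N)).powersetCard r,
      (∏ q ∈ S, (quotientFunc u : Q0 N → ℍ → ℂ) q) ∣[(r : ℤ) * k] h =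
        ∏ q ∈ S.map (MulAction.toPerm ((⟨h, hh⟩ : 𝒮ℒ)⁻¹) : Q0 N ≃ Q0 N).toEmbedding,
          (quotientFunc u : Q0 N → ℍ → ℂ) q := by
    intro S hS
    have hc : S.card = r := (Finset.mem_powersetCard.mp hS).2
    rw [show (r : ℤ) * k = k * (S.card : ℤ) by rw [hc, mul_comm], ModularForm.prod_slash,
      Subgroup.HasDetPlusMinusOne.abs_det hh, one_zpow, one_smul, Finset.prod_map]
    refine Finset.prod_congr rfl fun q _ => ?_
    rw [quotientFunc_smul u hh]
    rfl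
  rw [Finset.sum_congr rfl key]
  refine Finset.sum_equiv (Equiv.finsetCongr (MulAction.toPerm ((⟨h, hh⟩ : 𝒮ℒ)⁻¹) : Q0 N ≃ Q0 N))
    (fun S => ?_) (fun S _ => ?_)
  · simp [Finset.mem_powersetCard]
  · simp [Equiv.finsetCongr_apply]

omit [NeZero N] in
theorem mdiff_quotientFunc
    [ModularFormClass F (CongruenceSubgroup.Gamma0 N : Subgroup (GL (Fin 2) ℝ)) k]
    (u : F) (q : Q0 N) : MDiff (quotientFunc u q) := by
  induction q using Quotient.inductionOn with
  | h r => exact (ModularForm.translate u r.val⁻¹).holo'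

theorem bdd_quotientFunc
    [ModularFormClass F (CongruenceSubgroup.Gamma0 N : Subgroup (GL (Fin 2) ℝ)) k]
    (u : F) (q : Q0 N) : IsBoundedAtImInfty (quotientFunc u q) := by
  induction q using Quotient.inductionOn with
  | h r =>
    have hc : IsCusp (r.val⁻¹ • OnePoint.infty)
        (CongruenceSubgroup.Gamma0 N : Subgroup (GL (Fin 2) ℝ)) := by
      rw [Subgroup.IsArithmetic.isCusp_iff_isCusp_SL2Z]
      obtain ⟨γ, hγ⟩ := r.2
      rw [isCusp_SL2Z_iff']
      exact ⟨γ⁻¹, by rw [map_inv, hγ]⟩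
    exact ModularFormClass.bdd_at_cusps u hc _ rfl

theorem zero_quotientFunc
    [CuspFormClass F (CongruenceSubgroup.Gamma0 N : Subgroup (GL (Fin 2) ℝ)) k]
    (f : F) (q : Q0 N) : IsZeroAtImInfty (quotientFunc f q) := by
  induction q using Quotient.inductionOn with
  | h r =>
    have hc : IsCusp (r.val⁻¹ • OnePoint.infty)
        (CongruenceSubgroup.Gamma0 N : Subgroup (GL (Fin 2) ℝ)) := by
      rw [Subgroup.IsArithmetic.isCusp_iff_isCusp_SL2Z]
      obtain ⟨γ, hγ⟩ := r.2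
      rw [isCusp_SL2Z_iff']
      exact ⟨γ⁻¹, by rw [map_inv, hγ]⟩
    exact CuspFormClass.zero_at_cusps f hc _ rfl

end general

theorem bdd_finset_sum {ι : Type*} (s : Finset ι) {G : ι → ℍ → ℂ}
    (h : ∀ i ∈ s, IsBoundedAtImInfty (G i)) : IsBoundedAtImInfty (∑ i ∈ s, G i) := by
  classical
  induction s using Finset.induction_on with
  | empty =>
    rw [Finset.sum_empty]
    exact Filter.const_boundedAtFilter atImInfty (0 : ℂ)
  | insert a s ha ih =>
    rw [Finset.sum_insert ha]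
    exact (h a (Finset.mem_insert_self a s)).add (ih fun i hi => h i (Finset.mem_insert_of_mem hi))

theorem bdd_finset_prod {ι : Type*} (s : Finset ι) {G : ι → ℍ → ℂ}
    (h : ∀ i ∈ s, IsBoundedAtImInfty (G i)) : IsBoundedAtImInfty (∏ i ∈ s, G i) := by
  classical
  induction s using Finset.induction_on with
  | empty =>
    rw [Finset.prod_empty]
    exact Filter.const_boundedAtFilter atImInfty (1 : ℂ)
  | insert a s ha ih =>
    rw [Finset.prod_insert ha]
    exact (h a (Finset.mem_insert_self a s)).mul (ih fun i hi => h i (Finset.mem_insert_of_mem hi))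

theorem es_modularForm {N : ℕ} [NeZero N] {k : ℤ}
    (u : ModularForm (CongruenceSubgroup.Gamma0 N) k) (r : ℕ) :
    ∃ G : ModularForm 𝒮ℒ (r * k), (⇑G : ℍ → ℂ) = es (quotientFunc u) r := by
  classical
  refine ⟨{ toFun := es (quotientFunc u) r
            slash_action_eq' := fun h hh => es_slash u r hh
            holo' := ?_
            bdd_at_cusps' := ?_ }, rfl⟩
  · unfold es
    exact MDifferentiable.sum fun S _ => MDifferentiable.prod fun q _ => mdiff_quotientFunc u q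
  · intro c hc
    rw [Subgroup.IsArithmetic.isCusp_iff_isCusp_SL2Z] at hc
    rw [OnePoint.isBoundedAt_iff_forall_SL2Z hc]
    intro γ _
    have hγ : (Matrix.SpecialLinearGroup.mapGL ℝ γ : GL (Fin 2) ℝ) ∈ 𝒮ℒ := ⟨γ, rfl⟩
    have := es_slash u r hγ
    rw [show (es (quotientFunc u : Q0 N → ℍ → ℂ) r) ∣[(r : ℤ) * k] γ
      = es (quotientFunc u : Q0 N → ℍ → ℂ) r from this]
    unfold es
    exact bdd_finset_sum _ fun S _ => bdd_finset_prod _ fun q _ => bdd_quotientFunc u q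

theorem es_cuspForm {N : ℕ} [NeZero N] {k : ℤ}
    (f : CuspForm (CongruenceSubgroup.Gamma0 N) k) (r : ℕ) (hr : 0 < r) :
    ∃ G : CuspForm 𝒮ℒ (r * k), (⇑G : ℍ → ℂ) = es (quotientFunc f) r := by
  classical
  refine ⟨{ toFun := es (quotientFunc f) r
            slash_action_eq' := fun h hh => es_slash f r hh
            holo' := ?_
            zero_at_cusps' := ?_ }, rfl⟩
  · unfold es
    exact MDifferentiable.sum fun S _ => MDifferentiable.prod fun q _ => mdiff_quotientFunc f q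
  · intro c hc
    rw [Subgroup.IsArithmetic.isCusp_iff_isCusp_SL2Z] at hc
    rw [OnePoint.isZeroAt_iff_forall_SL2Z hc]
    intro γ _
    have hγ : (Matrix.SpecialLinearGroup.mapGL ℝ γ : GL (Fin 2) ℝ) ∈ 𝒮ℒ := ⟨γ, rfl⟩
    have := es_slash f r hγ
    rw [show (es (quotientFunc f : Q0 N → ℍ → ℂ) r) ∣[(r : ℤ) * k] γ
      = es (quotientFunc f : Q0 N → ℍ → ℂ) r from this]
    have h0 : Tendsto (fun z => ∑ S ∈ (Finset.univ : Finset (Q0 N)).powersetCard r,
        ∏ q ∈ S, (quotientFunc f : Q0 N → ℍ → ℂ) q z) atImInfty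
        (𝓝 (∑ S ∈ (Finset.univ : Finset (Q0 N)).powersetCard r, (0 : ℂ))) := by
      refine tendsto_finsetSum _ fun S hS => ?_
      have hc : S.card = r := (Finset.mem_powersetCard.mp hS).2
      have h1 : Tendsto (fun z => ∏ q ∈ S, (quotientFunc f : Q0 N → ℍ → ℂ) q z) atImInfty
          (𝓝 (∏ _q ∈ S, (0 : ℂ))) :=
        tendsto_finsetProd _ fun q _ => zero_quotientFunc f q
      rwa [Finset.prod_const, hc, zero_pow hr.ne'] at h1
    rw [Finset.sum_const_zero] at h0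
    have hfun : (es (quotientFunc f : Q0 N → ℍ → ℂ) r) = fun z =>
        ∑ S ∈ (Finset.univ : Finset (Q0 N)).powersetCard r,
          ∏ q ∈ S, (quotientFunc f : Q0 N → ℍ → ℂ) q z := funext fun z => es_apply _ _ z
    rw [hfun]
    exact h0

/-- "Power trace": `∑_q A_q * B_q ^ j`. -/
def ptr {N : ℕ} [NeZero N] (A B : Q0 N → ℍ → ℂ) (j : ℕ) : ℍ → ℂ :=
  ∑ q : Q0 N, A q * B q ^ j

theorem ptr_apply {N : ℕ} [NeZero N] (A B : Q0 N → ℍ → ℂ) (j : ℕ) (z : ℍ) :
    ptr A B j z = ∑ q : Q0 N, A q z * B q z ^ j := by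
  simp [ptr, Finset.sum_apply]

theorem slash_mul_pow (k₁ k₂ : ℤ) {h : GL (Fin 2) ℝ} (hh : |(h.det : ℝ)| = 1) (A B : ℍ → ℂ)
    (j : ℕ) : (A * B ^ j) ∣[k₁ + j * k₂] h = (A ∣[k₁] h) * (B ∣[k₂] h) ^ j := by
  induction j generalizing A k₁ with
  | zero => simp
  | succ j ih =>
    rw [pow_succ', ← mul_assoc,
      show k₁ + ((j + 1 : ℕ) : ℤ) * k₂ = (k₁ + k₂) + j * k₂ by push_cast; ring, ih,
      ModularForm.mul_slash, hh, one_smul, pow_succ', mul_assoc]

section ptr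

variable {N : ℕ} [NeZero N] {k₁ k₂ : ℤ} {F₁ F₂ : Type*} [FunLike F₁ ℍ ℂ] [FunLike F₂ ℍ ℂ]

theorem ptr_slash
    [SlashInvariantFormClass F₁ (CongruenceSubgroup.Gamma0 N : Subgroup (GL (Fin 2) ℝ)) k₁]
    [SlashInvariantFormClass F₂ (CongruenceSubgroup.Gamma0 N : Subgroup (GL (Fin 2) ℝ)) k₂]
    (f : F₁) (u : F₂) (j : ℕ) {h : GL (Fin 2) ℝ} (hh : h ∈ 𝒮ℒ) :
    ptr (quotientFunc f : Q0 N → ℍ → ℂ) (quotientFunc u) j ∣[k₁ + j * k₂] h =
      ptr (quotientFunc f) (quotientFunc u) j := by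
  classical
  unfold ptr
  rw [SlashAction.sum_slash]
  have key : ∀ q : Q0 N,
      ((quotientFunc f : Q0 N → ℍ → ℂ) q * (quotientFunc u : Q0 N → ℍ → ℂ) q ^ j)
        ∣[k₁ + j * k₂] h =
      (fun q : Q0 N => (quotientFunc f : Q0 N → ℍ → ℂ) q * (quotientFunc u : Q0 N → ℍ → ℂ) q ^ j)
        ((MulAction.toPerm ((⟨h, hh⟩ : 𝒮ℒ)⁻¹) : Q0 N ≃ Q0 N) q) := by
    intro q
    rw [slash_mul_pow k₁ k₂ (Subgroup.HasDetPlusMinusOne.abs_det hh), quotientFunc_smul f hh,
      quotientFunc_smul u hh]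
    rfl
  rw [Finset.sum_congr rfl fun q _ => key q]
  exact Equiv.sum_comp (MulAction.toPerm ((⟨h, hh⟩ : 𝒮ℒ)⁻¹) : Q0 N ≃ Q0 N)
    (fun q : Q0 N => (quotientFunc f : Q0 N → ℍ → ℂ) q * (quotientFunc u : Q0 N → ℍ → ℂ) q ^ j)

theorem ptr_modularForm
    [ModularFormClass F₁ (CongruenceSubgroup.Gamma0 N : Subgroup (GL (Fin 2) ℝ)) k₁]
    [ModularFormClass F₂ (CongruenceSubgroup.Gamma0 N : Subgroup (GL (Fin 2) ℝ)) k₂]
    (f : F₁) (u : F₂) (j : ℕ) :
    ∃ G : ModularForm 𝒮ℒ (k₁ + j * k₂),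
      (⇑G : ℍ → ℂ) = ptr (quotientFunc f : Q0 N → ℍ → ℂ) (quotientFunc u) j := by
  classical
  refine ⟨{ toFun := ptr (quotientFunc f : Q0 N → ℍ → ℂ) (quotientFunc u) j
            slash_action_eq' := fun h hh => ptr_slash f u j hh
            holo' := ?_
            bdd_at_cusps' := ?_ }, rfl⟩
  · unfold ptr
    exact MDifferentiable.sum fun q _ => (mdiff_quotientFunc f q).mul
      ((mdiff_quotientFunc u q).pow j)
  · intro c hc
    rw [Subgroup.IsArithmetic.isCusp_iff_isCusp_SL2Z] at hc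
    rw [OnePoint.isBoundedAt_iff_forall_SL2Z hc]
    intro γ _
    have hγ : (Matrix.SpecialLinearGroup.mapGL ℝ γ : GL (Fin 2) ℝ) ∈ 𝒮ℒ := ⟨γ, rfl⟩
    have := ptr_slash f u j hγ
    rw [show (ptr (quotientFunc f : Q0 N → ℍ → ℂ) (quotientFunc u) j) ∣[k₁ + (j : ℤ) * k₂] γ
      = ptr (quotientFunc f : Q0 N → ℍ → ℂ) (quotientFunc u) j from this]
    unfold ptr
    refine bdd_finset_sum _ fun q _ => (bdd_quotientFunc f q).mul ?_
    have hb : IsBoundedAtImInfty ((quotientFunc u : Q0 N → ℍ → ℂ) q ^ j) := by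
      have := bdd_finset_prod (Finset.range j) (G := fun _ => (quotientFunc u : Q0 N → ℍ → ℂ) q)
        fun _ _ => bdd_quotientFunc u q
      simpa using this
    exact hb

end ptr

end

end Fermat.Agent.S23
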