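import Mathlib

set_option autoImplicit false

namespace Fermat.Agent.S23

open UpperHalfPlane hiding I
open Complex Filter
open scoped Topology Manifold

noncomputable section

/-- zeros of a not identically vanishing holomorphic function on a connected open set are
isolated. -/
theorem division_eventually_ne_zero {U : Set ℂ} (hU : IsOpen U) (hUc : IsPreconnected U)
    {g : ℂ → ℂ} (hg : DifferentiableOn ℂ g U) (hg0 : ∃ z ∈ U, g z ≠ 0) :
    ∀ z₀ ∈ U, ∀ᶠ w in 𝓝[≠] z₀, g w ≠ 0 := by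
  have hgan : AnalyticOnNhd ℂ g U := hg.analyticOnNhd hU
  intro z₀ hz₀
  rcases (hgan z₀ hz₀).eventually_eq_zero_or_eventually_ne_zero with h0 | h0
  · exfalso
    obtain ⟨z₁, hz₁, hgz₁⟩ := hg0
    exact hgz₁ (hgan.eqOn_zero_of_preconnected_of_eventuallyEq_zero hUc hz₀ h0 hz₁)
  · exact h0

/-- If `u, g` are holomorphic on a connected open set, `g ≢ 0`, and `u / g` is locally bounded
where `g ≠ 0`, then `g` divides `u` in holomorphic functions. -/
theorem division_exists_differentiableOn_quotient {U : Set ℂ} (hU : IsOpen U)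
    (hUc : IsPreconnected U) {u g : ℂ → ℂ} (hu : DifferentiableOn ℂ u U)
    (hg : DifferentiableOn ℂ g U) (hg0 : ∃ z ∈ U, g z ≠ 0) (b : ℂ → ℝ) (hb : ContinuousOn b U)
    (hbound : ∀ z ∈ U, g z ≠ 0 → ‖u z / g z‖ ≤ b z) :
    ∃ φ : ℂ → ℂ, DifferentiableOn ℂ φ U ∧ ∀ z ∈ U, φ z * g z = u z := by
  classical
  set f : ℂ → ℂ := fun w => u w / g w with hf
  set φ : ℂ → ℂ := fun z => limUnder (𝓝[≠] z) f with hφ
  have hiso := division_eventually_ne_zero hU hUc hg hg0
  -- value of `φ` at points where `g ≠ 0`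
  have hval : ∀ z ∈ U, g z ≠ 0 → φ z = u z / g z := by
    intro z hz hgz
    have hcont : ContinuousAt f z :=
      ((hu.differentiableAt (hU.mem_nhds hz)).continuousAt).div
        ((hg.differentiableAt (hU.mem_nhds hz)).continuousAt) hgz
    exact (hcont.tendsto.mono_left nhdsWithin_le_nhds).limUnder_eq
  -- local differentiability
  have hdiff : ∀ z₀ ∈ U, DifferentiableAt ℂ φ z₀ := by
    intro z₀ hz₀
    have h1 : ∀ᶠ w in 𝓝 z₀, w ∈ U := hU.mem_nhds hz₀
    have h2 : ∀ᶠ w in 𝓝 z₀, w ≠ z₀ → g w ≠ 0 := by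
      have := hiso z₀ hz₀
      rw [eventually_nhdsWithin_iff] at this
      exact this
    have h3 : ∀ᶠ w in 𝓝 z₀, b w < b z₀ + 1 := by
      have hbi : ContinuousAt b z₀ := hb.continuousAt (hU.mem_nhds hz₀)
      exact hbi.tendsto.eventually (gt_mem_nhds (by linarith))
    obtain ⟨s, hs_nhds, hs⟩ := (h1.and (h2.and h3)).exists_mem
    obtain ⟨t, hts, ht_open, hz₀t⟩ := mem_nhds_iff.mp hs_nhds
    have ht_nhds : t ∈ 𝓝 z₀ := ht_open.mem_nhds hz₀t
    have hd : DifferentiableOn ℂ f (t \ {z₀}) := by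
      intro w hw
      have hwU : w ∈ U := (hs w (hts hw.1)).1
      have hgw : g w ≠ 0 := (hs w (hts hw.1)).2.1 hw.2
      exact ((hu.differentiableAt (hU.mem_nhds hwU)).div
        (hg.differentiableAt (hU.mem_nhds hwU)) hgw).differentiableWithinAt
    have hbd : BddAbove (norm ∘ f '' (t \ {z₀})) := by
      refine ⟨b z₀ + 1, ?_⟩
      rintro _ ⟨w, hw, rfl⟩
      have hwU : w ∈ U := (hs w (hts hw.1)).1
      have hgw : g w ≠ 0 := (hs w (hts hw.1)).2.1 hw.2
      have hbw := (hs w (hts hw.1)).2.2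
      exact (hbound w hwU hgw).trans hbw.le
    have hupd := Complex.differentiableOn_update_limUnder_of_bddAbove ht_nhds hd hbd
    have heq : ∀ w ∈ t, φ w = Function.update f z₀ (limUnder (𝓝[≠] z₀) f) w := by
      intro w hw
      by_cases hwz : w = z₀
      · subst hwz
        simp [hφ]
      · rw [Function.update_of_ne hwz]
        exact hval w (hs w (hts hw)).1 ((hs w (hts hw)).2.1 hwz)
    have h5 : DifferentiableAt ℂ (Function.update f z₀ (limUnder (𝓝[≠] z₀) f)) z₀ :=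
      hupd.differentiableAt ht_nhds
    refine h5.congr_of_eventuallyEq ?_
    filter_upwards [ht_nhds] with w hw using heq w hw
  refine ⟨φ, fun z hz => (hdiff z hz).differentiableWithinAt, fun z hz => ?_⟩
  by_cases hgz : g z = 0
  · -- both sides are continuous and agree on a punctured neighbourhood
    have hL : Tendsto (fun w => φ w * g w) (𝓝[≠] z) (𝓝 (φ z * g z)) :=
      (((hdiff z hz).continuousAt).mul
        ((hg.differentiableAt (hU.mem_nhds hz)).continuousAt)).tendsto.mono_left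
        nhdsWithin_le_nhds
    have hR : Tendsto u (𝓝[≠] z) (𝓝 (u z)) :=
      ((hu.differentiableAt (hU.mem_nhds hz)).continuousAt).tendsto.mono_left nhdsWithin_le_nhds
    have hev : (fun w => φ w * g w) =ᶠ[𝓝[≠] z] u := by
      have hU' : ∀ᶠ w in 𝓝[≠] z, w ∈ U := nhdsWithin_le_nhds (hU.mem_nhds hz)
      filter_upwards [hiso z hz, hU'] with w hw hwU
      rw [hval w hwU hw]
      field_simp
    exact tendsto_nhds_unique (hL.congr' hev) hR
  · rw [hval z hz hgz]
    field_simp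

theorem division_isOpen_uhp : IsOpen {z : ℂ | 0 < z.im} :=
  isOpen_lt continuous_const Complex.continuous_im

theorem division_isPreconnected_uhp : IsPreconnected {z : ℂ | 0 < z.im} :=
  (convex_halfSpace_im_gt 0).isPreconnected

theorem division_exists_ne_zero {Q : ℍ → ℂ} (hQ0 : Q ≠ 0) :
    ∃ z ∈ {z : ℂ | 0 < z.im}, (Q ∘ ofComplex) z ≠ 0 := by
  obtain ⟨τ, hτ⟩ : ∃ τ : ℍ, Q τ ≠ 0 := by
    by_contra hcon
    push Not at hcon
    exact hQ0 (funext hcon)
  exact ⟨(τ : ℂ), τ.im_pos, by simpa [Function.comp_apply, ofComplex_apply] using hτ⟩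

/-- Holomorphic functions on `ℍ` form an integral domain. -/
theorem eq_zero_of_mul_eq_zero_mdiff {G Q : ℍ → ℂ} (hG : MDiff G) (hQ : MDiff Q) (hQ0 : Q ≠ 0)
    (h : ∀ z, G z * Q z = 0) : G = 0 := by
  have hQd : DifferentiableOn ℂ (Q ∘ ofComplex) {z : ℂ | 0 < z.im} :=
    UpperHalfPlane.mdifferentiable_iff.mp hQ
  have hGd : DifferentiableOn ℂ (G ∘ ofComplex) {z : ℂ | 0 < z.im} :=
    UpperHalfPlane.mdifferentiable_iff.mp hG
  have hiso := division_eventually_ne_zero division_isOpen_uhp division_isPreconnected_uhp hQd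
    (division_exists_ne_zero hQ0)
  funext τ
  have hτ : (τ : ℂ) ∈ {z : ℂ | 0 < z.im} := τ.im_pos
  have hcont : ContinuousAt (G ∘ ofComplex) (τ : ℂ) :=
    (hGd.differentiableAt (division_isOpen_uhp.mem_nhds hτ)).continuousAt
  have hev : (G ∘ ofComplex) =ᶠ[𝓝[≠] (τ : ℂ)] fun _ => (0 : ℂ) := by
    have hU' : ∀ᶠ w in 𝓝[≠] (τ : ℂ), w ∈ {z : ℂ | 0 < z.im} :=
      nhdsWithin_le_nhds (division_isOpen_uhp.mem_nhds hτ)
    filter_upwards [hiso (τ : ℂ) hτ, hU'] with w hw hwU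
    have := h (ofComplex w)
    simp only [Function.comp_apply] at hw ⊢
    exact (mul_eq_zero.mp this).resolve_right hw
  have hlim : Tendsto (G ∘ ofComplex) (𝓝[≠] (τ : ℂ)) (𝓝 ((G ∘ ofComplex) (τ : ℂ))) :=
    hcont.tendsto.mono_left nhdsWithin_le_nhds
  have h0 : (G ∘ ofComplex) (τ : ℂ) = 0 :=
    tendsto_nhds_unique hlim (tendsto_const_nhds.congr' hev.symm)
  simpa [Function.comp_apply, ofComplex_apply] using h0

/-- Removable singularities: if `R / Q` is locally bounded where `Q ≠ 0`, then `R = F * Q` with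
`F` holomorphic on `ℍ`. -/
theorem exists_mdiff_quotient {R Q : ℍ → ℂ} (hR : MDiff R) (hQ : MDiff Q) (hQ0 : Q ≠ 0)
    {B : ℍ → ℝ} (hB : Continuous B) (h : ∀ z, Q z ≠ 0 → ‖R z / Q z‖ ≤ B z) :
    ∃ F : ℍ → ℂ, MDiff F ∧ ∀ z, F z * Q z = R z := by
  have hQd : DifferentiableOn ℂ (Q ∘ ofComplex) {z : ℂ | 0 < z.im} :=
    UpperHalfPlane.mdifferentiable_iff.mp hQ
  have hRd : DifferentiableOn ℂ (R ∘ ofComplex) {z : ℂ | 0 < z.im} :=
    UpperHalfPlane.mdifferentiable_iff.mp hR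
  have hBc : ContinuousOn (B ∘ ofComplex) {z : ℂ | 0 < z.im} := by
    intro z hz
    have h1 : ContinuousAt (ofComplex : ℂ → ℍ) z :=
      (mdifferentiableAt_ofComplex hz).continuousAt
    exact (hB.continuousAt.comp h1).continuousWithinAt
  obtain ⟨φ, hφd, hφ⟩ := division_exists_differentiableOn_quotient division_isOpen_uhp
    division_isPreconnected_uhp hRd hQd (division_exists_ne_zero hQ0) (B ∘ ofComplex) hBc
    (fun z _ hgz => h (ofComplex z) hgz)
  refine ⟨fun τ => φ (τ : ℂ), ?_, fun τ => ?_⟩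
  · rw [UpperHalfPlane.mdifferentiable_iff]
    refine hφd.congr fun z hz => ?_
    simp only [Function.comp_apply, Set.mem_ofPred_eq] at hz ⊢
    rw [ofComplex_apply_of_im_pos hz]
  · have := hφ (τ : ℂ) τ.im_pos
    simpa [Function.comp_apply, ofComplex_apply] using this

/-- Root bound for monic polynomials. -/
theorem norm_le_of_monic_root {d : ℕ} (c : ℕ → ℂ) (x : ℂ)
    (h : x ^ d + ∑ s ∈ Finset.range d, c s * x ^ (d - 1 - s) = 0) :
    ‖x‖ ≤ max 1 (∑ s ∈ Finset.range d, ‖c s‖) := by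
  rcases le_or_gt ‖x‖ 1 with h1 | h1
  · exact h1.trans (le_max_left _ _)
  · refine le_trans ?_ (le_max_right _ _)
    rcases Nat.eq_zero_or_pos d with rfl | hd
    · simp at h
    have hx : x ^ d = -∑ s ∈ Finset.range d, c s * x ^ (d - 1 - s) :=
      eq_neg_of_add_eq_zero_left h
    have h2 : ‖x‖ ^ d ≤ (∑ s ∈ Finset.range d, ‖c s‖) * ‖x‖ ^ (d - 1) := by
      calc ‖x‖ ^ d = ‖x ^ d‖ := (norm_pow _ _).symm
        _ = ‖∑ s ∈ Finset.range d, c s * x ^ (d - 1 - s)‖ := by rw [hx, norm_neg]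
        _ ≤ ∑ s ∈ Finset.range d, ‖c s * x ^ (d - 1 - s)‖ := norm_sum_le _ _
        _ ≤ ∑ s ∈ Finset.range d, ‖c s‖ * ‖x‖ ^ (d - 1) := by
            refine Finset.sum_le_sum fun s _ => ?_
            rw [norm_mul, norm_pow]
            refine mul_le_mul_of_nonneg_left ?_ (norm_nonneg _)
            exact pow_le_pow_right₀ h1.le (Nat.sub_le _ _)
        _ = (∑ s ∈ Finset.range d, ‖c s‖) * ‖x‖ ^ (d - 1) := by rw [Finset.sum_mul]
    have h3 : ‖x‖ ^ d = ‖x‖ * ‖x‖ ^ (d - 1) := by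
      rw [← pow_succ', Nat.sub_add_cancel hd]
    rw [h3] at h2
    have hpos : 0 < ‖x‖ ^ (d - 1) := pow_pos (by linarith) _
    exact le_of_mul_le_mul_right h2 hpos

/-- Root bound for monic polynomials with small coefficients. -/
theorem norm_pow_le_of_monic_root {d : ℕ} (c : ℕ → ℂ) (x : ℂ)
    (h : x ^ d + ∑ s ∈ Finset.range d, c s * x ^ (d - 1 - s) = 0)
    (hsmall : ∑ s ∈ Finset.range d, ‖c s‖ ≤ 1) :
    ‖x‖ ^ d ≤ ∑ s ∈ Finset.range d, ‖c s‖ := by
  have hx1 : ‖x‖ ≤ 1 := by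
    have := norm_le_of_monic_root c x h
    rwa [max_eq_left hsmall] at this
  have hx : x ^ d = -∑ s ∈ Finset.range d, c s * x ^ (d - 1 - s) :=
    eq_neg_of_add_eq_zero_left h
  calc ‖x‖ ^ d = ‖x ^ d‖ := (norm_pow _ _).symm
    _ = ‖∑ s ∈ Finset.range d, c s * x ^ (d - 1 - s)‖ := by rw [hx, norm_neg]
    _ ≤ ∑ s ∈ Finset.range d, ‖c s * x ^ (d - 1 - s)‖ := norm_sum_le _ _
    _ ≤ ∑ s ∈ Finset.range d, ‖c s‖ := by
        refine Finset.sum_le_sum fun s _ => ?_
        rw [norm_mul, norm_pow]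
        exact mul_le_of_le_one_right (norm_nonneg _) (pow_le_one₀ (norm_nonneg _) hx1)

end

end Fermat.Agent.S23
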