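import Mathlib
import Fermat.Agent.S23.Basic

set_option autoImplicit false

namespace Fermat.Agent.S23

open UpperHalfPlane hiding I
open Complex Filter ModularForm ModularFormClass EisensteinSeries
open scoped MatrixGroups ModularForm Topology Manifold

noncomputable section

theorem levelone_map_smul (σ : ℂ →+* ℂ) (c : ℂ) (p : PowerSeries ℂ) :
    PowerSeries.map σ (c • p) = σ c • PowerSeries.map σ p := by
  ext n
  simp

/-- The `q`-expansion of the Eisenstein series `E_k` has rational coefficients. -/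
theorem qExp_E_map (σ : ℂ →+* ℂ) {k : ℕ} (hk : 3 ≤ k) (hk2 : Even k) :
    (qExpansion 1 (E hk)).map σ = qExpansion 1 (E hk) := by
  ext m
  rw [PowerSeries.coeff_map, E_qExpansion_coeff hk hk2 m]
  split_ifs
  · simp
  · simp [map_neg, map_mul, map_div₀, map_natCast, map_ratCast, map_ofNat]

/-- The `q`-expansion of `Δ` has rational coefficients. -/
theorem qExp_discriminant_map (σ : ℂ →+* ℂ) :
    (qExpansion 1 ModularForm.discriminant).map σ = qExpansion 1 ModularForm.discriminant := by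
  have p4 : PB (⇑E₄ : ℍ → ℂ) := PB.of_modularForm one_mem_strictPeriods_SL E₄
  have p6 : PB (⇑E₆ : ℍ → ℂ) := PB.of_modularForm one_mem_strictPeriods_SL E₆
  have hΔ : (ModularForm.discriminant : ℍ → ℂ) =
      (1 / 1728 : ℂ) • ((⇑E₄ : ℍ → ℂ) ^ 3 - (⇑E₆ : ℍ → ℂ) ^ 2) := by
    funext z
    rw [discriminant_eq_E₄_cube_sub_E₆_sq z]
    simp only [Pi.smul_apply, Pi.sub_apply, Pi.pow_apply, smul_eq_mul]
    ring
  have hq : qExpansion 1 ModularForm.discriminant =
      (1 / 1728 : ℂ) • (qExpansion 1 E₄ ^ 3 - qExpansion 1 E₆ ^ 2) := by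
    rw [hΔ, qExp_smul _ ((p4.pow 3).sub (p6.pow 2)), qExp_sub (p4.pow 3) (p6.pow 2),
      qExp_pow p4, qExp_pow p6]
  rw [hq, levelone_map_smul, map_sub, map_pow, map_pow, qExp_E_map σ _ ⟨2, rfl⟩,
    qExp_E_map σ _ ⟨3, rfl⟩]
  congr 1
  simp [map_ofNat]

theorem pb_discriminant : PB (ModularForm.discriminant : ℍ → ℂ) := by
  have := PB.of_modularForm one_mem_strictPeriods_SL CuspForm.discriminant
  rwa [CuspForm.coe_discriminant] at this

theorem levelOne_twist_aux (σ : ℂ →+* ℂ) : ∀ (n : ℕ) (k : ℤ), k.toNat = n →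
    ∀ g : ModularForm 𝒮ℒ k, ∃ g' : ModularForm 𝒮ℒ k,
      qExpansion 1 g' = (qExpansion 1 g).map σ := by
  intro n
  induction n using Nat.strong_induction_on with
  | _ n ih =>
  intro k hkn g
  have hzero : g = 0 → ∃ g' : ModularForm 𝒮ℒ k, qExpansion 1 g' = (qExpansion 1 g).map σ := by
    rintro rfl
    exact ⟨0, by rw [FunLike.coe_zero, UpperHalfPlane.qExpansion_zero, map_zero]⟩
  rcases lt_or_ge k 0 with hk | hk
  · exact hzero (rank_zero_iff_forall_zero.mp (levelOne_neg_weight_rank_zero hk) g)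
  rcases Int.even_or_odd k with hev | hodd
  swap
  · exact hzero (levelOne_odd_weight_eq_zero hodd g)
  rcases (show k = 0 ∨ k = 2 ∨ 3 ≤ k by obtain ⟨m, hm⟩ := hev; omega) with rfl | rfl | hk3
  · -- weight 0: constants
    obtain ⟨c, hc⟩ := levelOne_weight_zero_const g
    refine ⟨ModularForm.const (σ c), ?_⟩
    have h1 : (⇑(ModularForm.const (σ c) : ModularForm 𝒮ℒ 0) : ℍ → ℂ) = σ c • (1 : ℍ → ℂ) := by
      funext z; simp
    have h2 : (⇑g : ℍ → ℂ) = c • (1 : ℍ → ℂ) := by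
      rw [hc]; funext z; simp
    rw [h1, h2, qExp_smul _ PB.one, qExp_smul _ PB.one, UpperHalfPlane.qExpansion_one,
      levelone_map_smul, map_one]
  · exact hzero (rank_zero_iff_forall_zero.mp levelOne_weight_two_rank_zero g)
  · obtain ⟨m, rfl⟩ : ∃ m : ℕ, k = (m : ℤ) := ⟨k.toNat, by omega⟩
    have hm3 : 3 ≤ m := by exact_mod_cast hk3
    have hm2 : Even m := by exact_mod_cast hev
    have pg : PB (⇑g : ℍ → ℂ) := PB.of_modularForm one_mem_strictPeriods_SL g
    have pE : PB (⇑(E hm3) : ℍ → ℂ) := PB.of_modularForm one_mem_strictPeriods_SL (E hm3)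
    set a : ℂ := (qExpansion 1 g).coeff 0 with ha
    let h : ModularForm 𝒮ℒ (m : ℤ) := g - a • E hm3
    have hfun : (⇑h : ℍ → ℂ) = ⇑g - a • ⇑(E hm3) := rfl
    have hqh0 : qExpansion 1 h = qExpansion 1 g - a • qExpansion 1 (E hm3) := by
      rw [hfun, qExp_sub pg (pE.smul a), qExp_smul a pE]
    have hcusp : (qExpansion 1 h).coeff 0 = 0 := by
      rw [hqh0, map_sub, PowerSeries.coeff_smul, E_qExpansion_coeff_zero hm3 hm2]
      simp [ha]
    let h₁ : ModularForm 𝒮ℒ ((m : ℤ) - 12) := CuspForm.discriminantEquiv (toCuspForm h hcusp)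
    have hqh : qExpansion 1 h = qExpansion 1 ModularForm.discriminant * qExpansion 1 h₁ :=
      qExpansion_eq_qExpansion_discriminant_mul h hcusp
    obtain ⟨h₁', hh₁'⟩ := ih ((m : ℤ) - 12).toNat (by omega) ((m : ℤ) - 12) rfl h₁
    have ph₁' : PB (⇑h₁' : ℍ → ℂ) := PB.of_modularForm one_mem_strictPeriods_SL h₁'
    let g' : ModularForm 𝒮ℒ (m : ℤ) :=
      σ a • E hm3 + ModularFormClass.modularForm (CuspForm.ofMulDiscriminant h₁')
    refine ⟨g', ?_⟩
    have hg' : (⇑g' : ℍ → ℂ) =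
        σ a • ⇑(E hm3) + (ModularForm.discriminant : ℍ → ℂ) * ⇑h₁' := by
      funext z
      rfl
    have hg : qExpansion 1 g = a • qExpansion 1 (E hm3) +
        qExpansion 1 ModularForm.discriminant * qExpansion 1 h₁ := by
      rw [← hqh, hqh0]; ring
    rw [hg', qExp_add (pE.smul _) (pb_discriminant.mul ph₁'), qExp_smul _ pE,
      qExp_mul pb_discriminant ph₁', hh₁', hg, map_add, levelone_map_smul, map_mul,
      qExp_E_map σ hm3 hm2, qExp_discriminant_map]

/-- Level one modular forms are stable under twisting the `q`-expansion by any ring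
endomorphism of `ℂ`. -/
theorem levelOne_twist (σ : ℂ →+* ℂ) (k : ℤ) (g : ModularForm 𝒮ℒ k) :
    ∃ g' : ModularForm 𝒮ℒ k, qExpansion 1 g' = (qExpansion 1 g).map σ :=
  levelOne_twist_aux σ k.toNat k rfl g

theorem levelOne_twist_cusp (σ : ℂ →+* ℂ) (k : ℤ) (g : CuspForm 𝒮ℒ k) :
    ∃ g' : CuspForm 𝒮ℒ k, qExpansion 1 g' = (qExpansion 1 g).map σ := by
  obtain ⟨g', hg'⟩ := levelOne_twist σ k (ModularFormClass.modularForm g)
  have h0 : (qExpansion 1 g').coeff 0 = 0 := by
    rw [hg', PowerSeries.coeff_map]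
    have : (qExpansion 1 (⇑(ModularFormClass.modularForm g) : ℍ → ℂ)).coeff 0 = 0 :=
      CuspFormClass.qExpansion_coeff_zero g one_pos one_mem_strictPeriods_SL
    rw [this, map_zero]
  exact ⟨toCuspForm g' h0, hg'⟩

theorem Tw.of_levelOne (σ : ℂ →+* ℂ) (N : ℕ) {k : ℤ} (g : ModularForm 𝒮ℒ k) :
    Tw σ N k (g : ℍ → ℂ) := by
  obtain ⟨g', hg'⟩ := levelOne_twist σ k g
  exact ⟨PB.of_modularForm one_mem_strictPeriods_SL g, g',
    PB.of_modularForm one_mem_strictPeriods_SL g',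
    fun γ _ => SlashInvariantFormClass.slash_action_eq g' _ ⟨γ, rfl⟩, hg'⟩

end

end Fermat.Agent.S23
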