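import Mathlib
import Fermat.Prelude.Def_ModularForm_HeckeOperator
import Fermat.Prelude.Thm_UpperHalfPlane_qCoeff_heckeT
import Fermat.Prelude.Thm_UpperHalfPlane_qCoeff_heckeU
import Fermat.Prelude.Thm_ModularForm_mdifferentiable_heckeU
import Fermat.Prelude.Thm_ModularForm_periodic_heckeU_comp_ofComplex
import Fermat.Prelude.Thm_ModularForm_isBoundedAtImInfty_heckeU
import Fermat.Prelude.Thm_ModularForm_mdifferentiable_heckeT
import Fermat.Prelude.Thm_ModularForm_periodic_heckeT_comp_ofComplex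
import Fermat.Prelude.Thm_ModularForm_isBoundedAtImInfty_heckeT
import Fermat.Prelude.Thm_CongruenceSubgroup_one_mem_strictPeriods_Gamma0
import Fermat.Agent.S23.LevelOne

set_option autoImplicit false

namespace Fermat.Agent.S23

open UpperHalfPlane hiding I
open Complex Filter ModularForm ModularFormClass
open scoped MatrixGroups ModularForm Topology Manifold

noncomputable section

namespace Scale

/-- restriction of a modular form to a smaller subgroup -/
def restrictLE {Γ Γ' : Subgroup (GL (Fin 2) ℝ)} {k : ℤ} (h : Γ' ≤ Γ) (f : ModularForm Γ k) :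
    ModularForm Γ' k where
  toFun := f
  slash_action_eq' A hA := f.slash_action_eq' A (h hA)
  holo' := f.holo'
  bdd_at_cusps' hc := f.bdd_at_cusps' (hc.mono h)

theorem SL_slash_eq_mapGL (F : ℍ → ℂ) (k : ℤ) (γ : SL(2, ℤ)) :
    F ∣[k] γ = F ∣[k] (Matrix.SpecialLinearGroup.mapGL ℝ γ) := rfl

open ConjAct Pointwise in
theorem Gamma0_le_conj (N : ℕ) [NeZero N] :
    ((CongruenceSubgroup.Gamma0 N : Subgroup SL(2, ℤ)) : Subgroup (GL (Fin 2) ℝ)) ≤
      toConjAct (heckeDiagMatrix N)⁻¹ • 𝒮ℒ := by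
  rintro _ ⟨γ, hγ, rfl⟩
  rw [Subgroup.mem_pointwise_smul_iff_inv_smul_mem, ← ConjAct.toConjAct_inv, inv_inv,
    ConjAct.toConjAct_smul]
  have hγ' : ((γ 1 0 : ℤ) : ZMod N) = 0 := CongruenceSubgroup.Gamma0_mem.mp hγ
  obtain ⟨c', hc'⟩ : (N : ℤ) ∣ γ 1 0 := (ZMod.intCast_zmod_eq_zero_iff_dvd _ _).mp hγ'
  have hdet : γ 0 0 * γ 1 1 - γ 0 1 * γ 1 0 = 1 := by
    have := γ.det_coe
    rwa [Matrix.det_fin_two] at this
  let γ' : SL(2, ℤ) := ⟨!![γ 0 0, N * γ 0 1; c', γ 1 1], by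
    rw [Matrix.det_fin_two_of]
    rw [hc'] at hdet
    linear_combination hdet⟩
  refine ⟨γ', ?_⟩
  rw [eq_mul_inv_iff_mul_eq]
  have hN : N ≠ 0 := NeZero.ne N
  apply Matrix.GeneralLinearGroup.ext
  intro i j
  have e00 : (γ' : Matrix (Fin 2) (Fin 2) ℤ) 0 0 = γ 0 0 := rfl
  have e01 : (γ' : Matrix (Fin 2) (Fin 2) ℤ) 0 1 = N * γ 0 1 := rfl
  have e10 : (γ' : Matrix (Fin 2) (Fin 2) ℤ) 1 0 = c' := rfl
  have e11 : (γ' : Matrix (Fin 2) (Fin 2) ℤ) 1 1 = γ 1 1 := rfl
  fin_cases i <;> fin_cases j <;>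
    simp [Matrix.mul_apply, Fin.sum_univ_two, val_heckeDiagMatrix hN, hc', mul_comm,
      e00, e01, e10, e11]

end Scale

/-- `z ↦ Δ(N z)` (up to a nonzero rational constant, implementer's choice) as a modular form of
weight `12` and level `Γ₀(N)`. -/
def scaledDelta (N : ℕ) [NeZero N] : ModularForm (CongruenceSubgroup.Gamma0 N) 12 :=
  Scale.restrictLE (Scale.Gamma0_le_conj N)
    (ModularForm.translate CuspForm.discriminant (heckeDiagMatrix N))

namespace Scale

theorem coe_scaledDelta (N : ℕ) [NeZero N] :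
    (⇑(scaledDelta N) : ℍ → ℂ) = ModularForm.discriminant ∣[(12 : ℤ)] heckeDiagMatrix N := rfl

theorem scaledDelta_apply (N : ℕ) [NeZero N] (τ : ℍ) :
    scaledDelta N τ = (N : ℂ) ^ (11 : ℕ) * ModularForm.discriminant (heckeDiagMatrix N • τ) := by
  rw [coe_scaledDelta, slash_heckeDiagMatrix_apply 12 (NeZero.ne N)]
  norm_num

theorem pb_discriminant : PB ModularForm.discriminant :=
  PB.of_modularForm (f := CuspForm.discriminant) one_mem_strictPeriods_SL

theorem scaledDelta_eq_sub (N : ℕ) [NeZero N] :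
    (⇑(scaledDelta N) : ℍ → ℂ) =
      heckeT 12 N ModularForm.discriminant - heckeU 12 N ModularForm.discriminant := by
  rw [coe_scaledDelta, heckeT_eq_heckeU_add, add_sub_cancel_left]

theorem pb_heckeT (N : ℕ) : PB (heckeT 12 N ModularForm.discriminant) where
  per := ModularForm.periodic_heckeT_comp_ofComplex pb_discriminant.per 12 N
  holo := ModularForm.mdifferentiable_heckeT pb_discriminant.holo 12 N
  bdd := ModularForm.isBoundedAtImInfty_heckeT pb_discriminant.bdd 12 N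

theorem pb_heckeU (N : ℕ) : PB (heckeU 12 N ModularForm.discriminant) where
  per := ModularForm.periodic_heckeU_comp_ofComplex pb_discriminant.per 12 N
  holo := ModularForm.mdifferentiable_heckeU pb_discriminant.holo 12 N
  bdd := ModularForm.isBoundedAtImInfty_heckeU pb_discriminant.bdd 12 N

/-- the `q`-expansion of `scaledDelta` -/
theorem coeff_qExp_scaledDelta (N : ℕ) [NeZero N] (n : ℕ) :
    (qExpansion 1 (scaledDelta N)).coeff n =
      if N ∣ n then (N : ℂ) ^ (11 : ℕ) * (qExpansion 1 ModularForm.discriminant).coeff (n / N)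
      else 0 := by
  have hN : N ≠ 0 := NeZero.ne N
  rw [scaledDelta_eq_sub, qExp_sub (pb_heckeT N) (pb_heckeU N), map_sub]
  have h1 := UpperHalfPlane.qCoeff_heckeT pb_discriminant.per pb_discriminant.holo
    pb_discriminant.bdd 12 hN n
  have h2 := UpperHalfPlane.qCoeff_heckeU pb_discriminant.per pb_discriminant.holo
    pb_discriminant.bdd 12 hN n
  unfold ModularFormClass.qCoeff at h1 h2
  rw [h1, h2, coeffHeckeT_eq_coeffHeckeU_add, add_sub_cancel_left]
  split_ifs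
  · norm_num
  · rfl

end Scale

/-- The `q`-expansion of `scaledDelta` has rational coefficients. -/
theorem qExp_scaledDelta_map (σ : ℂ →+* ℂ) (N : ℕ) [NeZero N] :
    (qExpansion 1 (scaledDelta N)).map σ = qExpansion 1 (scaledDelta N) := by
  ext n
  rw [PowerSeries.coeff_map, Scale.coeff_qExp_scaledDelta]
  split_ifs
  · have h := congrArg (fun p => PowerSeries.coeff (n / N) p) (qExp_discriminant_map σ)
    simp only [PowerSeries.coeff_map] at h
    rw [map_mul, map_pow, map_natCast, h]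
  · exact map_zero σ

namespace Scale

/-- Hermite normal form of `diag(N, 1) * γ` -/
theorem exists_hermite (N : ℕ) [NeZero N] (γ : SL(2, ℤ)) :
    ∃ (γ' : SL(2, ℤ)) (e B D : ℤ), 0 < e ∧ 0 < D ∧ e * D = N ∧ (D = 1 → (N : ℤ) ∣ γ 1 0) ∧
      ∃ had : ((e : ℝ) * (D : ℝ)) ≠ 0,
        heckeDiagMatrix N * (Matrix.SpecialLinearGroup.mapGL ℝ γ : GL (Fin 2) ℝ) =
          (Matrix.SpecialLinearGroup.mapGL ℝ γ' : GL (Fin 2) ℝ) *
            upperTriangularGL (e : ℝ) (B : ℝ) (D : ℝ) had := by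
  have hN : N ≠ 0 := NeZero.ne N
  have hdet : γ 0 0 * γ 1 1 - γ 0 1 * γ 1 0 = 1 := by
    have := γ.det_coe
    rwa [Matrix.det_fin_two] at this
  set a := γ 0 0 with ha
  set b := γ 0 1 with hb
  set c := γ 1 0 with hc
  set d := γ 1 1 with hd
  obtain ⟨g, hg⟩ : ∃ g : ℕ, g = Int.gcd (N : ℤ) c := ⟨_, rfl⟩
  have hg0 : g ≠ 0 := by
    rw [hg, Ne, Int.gcd_eq_zero_iff]
    exact fun h => hN (by exact_mod_cast h.1)
  have hgpos : 0 < g := Nat.pos_of_ne_zero hg0
  obtain ⟨D, hD⟩ : (g : ℤ) ∣ (N : ℤ) := hg ▸ Int.gcd_dvd_left _ _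
  obtain ⟨z, hz⟩ : (g : ℤ) ∣ c := hg ▸ Int.gcd_dvd_right _ _
  obtain ⟨e, he⟩ : ∃ e : ℤ, e = (g : ℤ) := ⟨_, rfl⟩
  rw [← he] at hD hz
  have hepos : 0 < e := by rw [he]; exact_mod_cast hgpos
  have hDpos : 0 < D := by
    have h1 : (0 : ℤ) < e * D := by rw [← hD]; exact_mod_cast Nat.pos_of_ne_zero hN
    by_contra h
    rw [not_lt] at h
    nlinarith
  -- `D` and `z` are coprime
  have hcopDz : IsCoprime D z := by
    have h1 : g = g * Int.gcd D z := by
      have h := Int.gcd_mul_left e D z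
      rw [← hD, ← hz, ← hg, he, Int.natAbs_natCast] at h
      exact h
    have h2 : Int.gcd D z = 1 := by
      have := Nat.eq_of_mul_eq_mul_left hgpos (by rw [mul_one]; exact h1 : g * 1 = g * Int.gcd D z)
      exact this.symm
    exact Int.isCoprime_iff_gcd_eq_one.mpr h2
  have hcopaz : IsCoprime a z := ⟨d, -(b * e), by rw [hz] at hdet; linear_combination hdet⟩
  have hcop : IsCoprime (D * a) z := IsCoprime.mul_left hcopDz hcopaz
  obtain ⟨v, w, hvw⟩ := hcop
  let γ' : SL(2, ℤ) := ⟨!![D * a, -w; z, v], by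
    rw [Matrix.det_fin_two_of]
    linear_combination hvw⟩
  have e00 : (γ' : Matrix (Fin 2) (Fin 2) ℤ) 0 0 = D * a := rfl
  have e01 : (γ' : Matrix (Fin 2) (Fin 2) ℤ) 0 1 = -w := rfl
  have e10 : (γ' : Matrix (Fin 2) (Fin 2) ℤ) 1 0 = z := rfl
  have e11 : (γ' : Matrix (Fin 2) (Fin 2) ℤ) 1 1 = v := rfl
  have had : ((e : ℝ) * (D : ℝ)) ≠ 0 := by
    have : (0 : ℝ) < (e : ℝ) * (D : ℝ) := by exact_mod_cast mul_pos hepos hDpos
    exact this.ne'
  refine ⟨γ', e, v * N * b + w * d, D, hepos, hDpos, hD.symm, ?_, had, ?_⟩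
  · intro hD1
    rw [hD1, mul_one] at hD
    exact ⟨z, by rw [hD]; exact hz⟩
  · have h00 : (D * a) * e = N * a := by rw [hD]; ring
    have h01 : (D * a) * (v * N * b + w * d) + (-w) * D = N * b := by
      rw [hz] at hdet
      rw [hD]
      linear_combination (w * D) * hdet + (e * D * b) * hvw
    have h10 : z * e = c := by rw [hz]; ring
    have h11 : z * (v * N * b + w * d) + v * D = d := by
      rw [hz] at hdet
      rw [hD]
      linear_combination (-(v * D)) * hdet + d * hvw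
    have r00 : ((D : ℝ) * (a : ℝ)) * (e : ℝ) = (N : ℝ) * (a : ℝ) := by exact_mod_cast h00
    have r01 : ((D : ℝ) * (a : ℝ)) * ((v : ℝ) * (N : ℝ) * (b : ℝ) + (w : ℝ) * (d : ℝ))
        + (-(w : ℝ)) * (D : ℝ) = (N : ℝ) * (b : ℝ) := by exact_mod_cast h01
    have r10 : (z : ℝ) * (e : ℝ) = (c : ℝ) := by exact_mod_cast h10
    have r11 : (z : ℝ) * ((v : ℝ) * (N : ℝ) * (b : ℝ) + (w : ℝ) * (d : ℝ)) + (v : ℝ) * (D : ℝ)
        = (d : ℝ) := by exact_mod_cast h11
    apply Matrix.GeneralLinearGroup.ext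
    intro i j
    fin_cases i <;> fin_cases j
    · simp [Matrix.mul_apply, Fin.sum_univ_two, val_heckeDiagMatrix hN, e00, e01]
      linear_combination -r00
    · simp [Matrix.mul_apply, Fin.sum_univ_two, val_heckeDiagMatrix hN, e00, e01]
      linear_combination -r01
    · simp [Matrix.mul_apply, Fin.sum_univ_two, val_heckeDiagMatrix hN, e10, e11]
      linear_combination -r10
    · simp [Matrix.mul_apply, Fin.sum_univ_two, val_heckeDiagMatrix hN, e10, e11]
      linear_combination -r11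

theorem det_upperTriangularGL (a b d : ℝ) (had : a * d ≠ 0) :
    ((upperTriangularGL a b d had).det : ℝ) = a * d := by
  rw [Matrix.GeneralLinearGroup.val_det_apply, val_upperTriangularGL, Matrix.det_fin_two_of]
  ring

theorem coe_upperTriangularGL_smul {a b d : ℝ} (ha : 0 < a) (hd : 0 < d) (τ : ℍ) :
    ((upperTriangularGL a b d (mul_pos ha hd).ne' • τ : ℍ) : ℂ) = ((a : ℂ) * τ + b) / d := by
  rw [UpperHalfPlane.coe_smul_of_det_pos
    (by rw [det_upperTriangularGL]; exact mul_pos ha hd)]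
  simp [UpperHalfPlane.num, UpperHalfPlane.denom]

theorem im_upperTriangularGL_smul {a b d : ℝ} (ha : 0 < a) (hd : 0 < d) (τ : ℍ) :
    (upperTriangularGL a b d (mul_pos ha hd).ne' • τ : ℍ).im = a * τ.im / d := by
  have h := congrArg Complex.im (coe_upperTriangularGL_smul (b := b) ha hd τ)
  rw [UpperHalfPlane.coe_im] at h
  rw [h]
  have h2 : ((a : ℂ) * τ + b) / d = (((a : ℂ) * τ + b) * ((d⁻¹ : ℝ) : ℂ)) := by
    rw [div_eq_mul_inv, Complex.ofReal_inv]
  rw [h2, Complex.mul_im]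
  simp
  field_simp

theorem slash_upperTriangularGL_apply (k : ℤ) {a b d : ℝ} (ha : 0 < a) (hd : 0 < d)
    (f : ℍ → ℂ) (τ : ℍ) :
    (f ∣[k] upperTriangularGL a b d (mul_pos ha hd).ne') τ =
      f (upperTriangularGL a b d (mul_pos ha hd).ne' • τ) * ((a * d : ℝ) : ℂ) ^ (k - 1) *
        (d : ℂ) ^ (-k) := by
  have hdet : 0 < ((upperTriangularGL a b d (mul_pos ha hd).ne').det : ℝ) := by
    rw [det_upperTriangularGL]; exact mul_pos ha hd
  rw [ModularForm.slash_apply, UpperHalfPlane.σ, if_pos hdet, det_upperTriangularGL,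
    abs_of_pos (mul_pos ha hd)]
  simp [UpperHalfPlane.denom]

/-- lower and upper exponential bounds for `Δ` near `i∞` -/
theorem exists_discriminant_bounds :
    ∃ (C₁ C₂ A : ℝ), 0 < C₁ ∧ 0 < C₂ ∧ ∀ τ : ℍ, A ≤ τ.im →
      Real.exp (-2 * Real.pi * τ.im) ≤ C₁ * ‖ModularForm.discriminant τ‖ ∧
      ‖ModularForm.discriminant τ‖ ≤ C₂ * Real.exp (-2 * Real.pi * τ.im) := by
  have hlow := ModularForm.exp_isBigO_discriminant
  have hup := CuspFormClass.exp_decay_atImInfty (h := 1) CuspForm.discriminant one_pos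
    one_mem_strictPeriods_SL
  obtain ⟨C₁, hC₁, h1⟩ := hlow.exists_pos
  obtain ⟨C₂, hC₂, h2⟩ := hup.exists_pos
  rw [Asymptotics.isBigOWith_iff] at h1 h2
  obtain ⟨A₁, hA₁⟩ := (UpperHalfPlane.atImInfty_mem _).mp h1
  obtain ⟨A₂, hA₂⟩ := (UpperHalfPlane.atImInfty_mem _).mp h2
  refine ⟨C₁, C₂, max A₁ A₂, hC₁, hC₂, fun τ hτ => ⟨?_, ?_⟩⟩
  · have := hA₁ τ ((le_max_left _ _).trans hτ)
    simpa [Real.norm_eq_abs, abs_of_pos (Real.exp_pos _)] using this
  · have := hA₂ τ ((le_max_right _ _).trans hτ)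
    simpa [Real.norm_eq_abs, abs_of_pos (Real.exp_pos _)] using this

theorem im_heckeDiagMatrix_smul {N : ℕ} (hN : N ≠ 0) (τ : ℍ) :
    (heckeDiagMatrix N • τ : ℍ).im = N * τ.im := by
  have h := congrArg Complex.im (coe_heckeDiagMatrix_smul hN τ)
  rw [UpperHalfPlane.coe_im] at h
  rw [h]
  simp

/-- comparing the growth at `i∞` forces the Hermite form to be `diag(N, 1)` -/
theorem hermite_D_eq_one (N : ℕ) [NeZero N] {e B D : ℤ} (he : 0 < e) (hD : 0 < D)
    (heD : e * D = N) (had : ((e : ℝ) * (D : ℝ)) ≠ 0)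
    (h : ∀ τ : ℍ, ModularForm.discriminant (upperTriangularGL (e : ℝ) (B : ℝ) (D : ℝ) had • τ) =
      (D : ℂ) ^ (12 : ℕ) * ModularForm.discriminant (heckeDiagMatrix N • τ)) : D = 1 := by
  obtain ⟨C₁, C₂, A, hC₁, hC₂, hb⟩ := exists_discriminant_bounds
  have hN : N ≠ 0 := NeZero.ne N
  have heR : (0 : ℝ) < e := by exact_mod_cast he
  have hDR : (0 : ℝ) < D := by exact_mod_cast hD
  have hNR : (N : ℝ) = e * D := by exact_mod_cast heD.symm
  have hNpos : (0 : ℝ) < N := by rw [hNR]; exact mul_pos heR hDR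
  by_contra hne
  have hD2 : (2 : ℝ) ≤ D := by
    have : (2 : ℤ) ≤ D := by omega
    exact_mod_cast this
  obtain ⟨δ, hδ⟩ : ∃ δ : ℝ, δ = N - e / D := ⟨_, rfl⟩
  have hδpos : 0 < δ := by
    rw [hδ, hNR]
    have : (e : ℝ) / D < e * D := by
      rw [div_lt_iff₀ hDR]
      nlinarith
    linarith
  obtain ⟨K, hK⟩ : ∃ K : ℝ, K = C₁ * ((D : ℝ) ^ 12 * C₂) := ⟨_, rfl⟩
  have key : ∀ y : ℝ, 0 < y → A * D / e ≤ y → A / N ≤ y →
      Real.exp (2 * Real.pi * δ * y) ≤ K := by
    intro y hy hy1 hy2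
    let τ : ℍ := ⟨⟨0, y⟩, hy⟩
    have him : τ.im = y := rfl
    have h1 := (hb (upperTriangularGL (e : ℝ) (B : ℝ) (D : ℝ) had • τ) (by
      rw [im_upperTriangularGL_smul heR hDR, him, le_div_iff₀ hDR]
      rw [div_le_iff₀ heR] at hy1
      linarith)).1
    have h2 := (hb (heckeDiagMatrix N • τ) (by
      rw [im_heckeDiagMatrix_smul hN, him]
      rw [div_le_iff₀ hNpos] at hy2
      linarith)).2
    rw [h τ, norm_mul, norm_pow, im_upperTriangularGL_smul heR hDR, him] at h1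
    rw [im_heckeDiagMatrix_smul hN, him] at h2
    have hDn : ‖(D : ℂ)‖ = (D : ℝ) := by
      rw [show (D : ℂ) = ((D : ℝ) : ℂ) by push_cast; rfl, Complex.norm_real,
        Real.norm_eq_abs, abs_of_pos hDR]
    rw [hDn] at h1
    have h3 : Real.exp (-2 * Real.pi * (e * y / D)) ≤
        K * Real.exp (-2 * Real.pi * (N * y)) := by
      calc Real.exp (-2 * Real.pi * (e * y / D))
          ≤ C₁ * ((D : ℝ) ^ 12 * ‖ModularForm.discriminant (heckeDiagMatrix N • τ)‖) := h1
        _ ≤ C₁ * ((D : ℝ) ^ 12 * (C₂ * Real.exp (-2 * Real.pi * (N * y)))) := by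
            apply mul_le_mul_of_nonneg_left _ hC₁.le
            exact mul_le_mul_of_nonneg_left h2 (by positivity)
        _ = K * Real.exp (-2 * Real.pi * (N * y)) := by rw [hK]; ring
    have h4 : Real.exp (2 * Real.pi * δ * y) =
        Real.exp (-2 * Real.pi * (e * y / D)) * Real.exp (2 * Real.pi * (N * y)) := by
      rw [← Real.exp_add, hδ]
      congr 1
      field_simp
      ring
    rw [h4]
    calc Real.exp (-2 * Real.pi * (e * y / D)) * Real.exp (2 * Real.pi * (N * y))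
        ≤ K * Real.exp (-2 * Real.pi * (N * y)) * Real.exp (2 * Real.pi * (N * y)) :=
          mul_le_mul_of_nonneg_right h3 (Real.exp_pos _).le
      _ = K := by
          rw [mul_assoc, ← Real.exp_add]
          have : -2 * Real.pi * (N * y) + 2 * Real.pi * (N * y) = 0 := by ring
          rw [this, Real.exp_zero, mul_one]
  have hπ : 0 < 2 * Real.pi * δ := by positivity
  obtain ⟨y, hy⟩ : ∃ y : ℝ, y = max (max 1 (A * D / e)) (max (A / N) (K / (2 * Real.pi * δ))) :=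
    ⟨_, rfl⟩
  have hy0 : 0 < y := by
    rw [hy]
    exact lt_of_lt_of_le one_pos ((le_max_left _ _).trans (le_max_left _ _))
  have hy1 : A * D / e ≤ y := by
    rw [hy]
    exact (le_max_right _ _).trans (le_max_left _ _)
  have hy2 : A / N ≤ y := by
    rw [hy]
    exact (le_max_left _ _).trans (le_max_right _ _)
  have hy3 : K / (2 * Real.pi * δ) ≤ y := by
    rw [hy]
    exact (le_max_right _ _).trans (le_max_right _ _)
  have h5 := key y hy0 hy1 hy2
  have h6 : 2 * Real.pi * δ * y + 1 ≤ Real.exp (2 * Real.pi * δ * y) := Real.add_one_le_exp _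
  rw [div_le_iff₀ hπ] at hy3
  linarith

end Scale

/-- Distinctness of the conjugates of `scaledDelta`: its stabiliser in `SL(2, ℤ)` (weight `12`
slash action) is exactly `Γ₀(N)`. -/
theorem mem_Gamma0_of_slash_scaledDelta (N : ℕ) [NeZero N] (γ : SL(2, ℤ))
    (h : (⇑(scaledDelta N) : ℍ → ℂ) ∣[(12 : ℤ)] γ = ⇑(scaledDelta N)) :
    γ ∈ CongruenceSubgroup.Gamma0 N := by
  obtain ⟨γ', e, B, D, he, hD, heD, hD1, had, hmat⟩ := Scale.exists_hermite N γ
  have heR : (0 : ℝ) < e := by exact_mod_cast he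
  have hDR : (0 : ℝ) < D := by exact_mod_cast hD
  have hN : N ≠ 0 := NeZero.ne N
  have h1 : (⇑(scaledDelta N) : ℍ → ℂ) ∣[(12 : ℤ)] γ =
      ModularForm.discriminant ∣[(12 : ℤ)] upperTriangularGL (e : ℝ) (B : ℝ) (D : ℝ) had := by
    rw [Scale.coe_scaledDelta, Scale.SL_slash_eq_mapGL, ← SlashAction.slash_mul, hmat,
      SlashAction.slash_mul]
    congr 1
    exact CuspForm.discriminant.slash_action_eq' _ ⟨γ', rfl⟩
  have h2 : ∀ τ : ℍ,
      ModularForm.discriminant (upperTriangularGL (e : ℝ) (B : ℝ) (D : ℝ) had • τ) =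
        (D : ℂ) ^ (12 : ℕ) * ModularForm.discriminant (heckeDiagMatrix N • τ) := by
    intro τ
    have h3 := congrFun (h1.symm.trans h) τ
    rw [Scale.slash_upperTriangularGL_apply 12 heR hDR, Scale.scaledDelta_apply] at h3
    have hNC : (((e : ℝ) * (D : ℝ) : ℝ) : ℂ) = (N : ℂ) := by
      have : (e : ℝ) * D = N := by exact_mod_cast heD
      rw [this]
      simp
    have hDC : (D : ℂ) ≠ 0 := by exact_mod_cast hD.ne'
    have hNC0 : (N : ℂ) ≠ 0 := by exact_mod_cast hN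
    have e1 : ((12 : ℤ) - 1) = ((11 : ℕ) : ℤ) := by norm_num
    have e2 : (-(12 : ℤ)) = -((12 : ℕ) : ℤ) := by norm_num
    rw [hNC, e1, zpow_natCast, e2, zpow_neg, zpow_natCast] at h3
    have hN11 : (N : ℂ) ^ 11 ≠ 0 := pow_ne_zero _ hNC0
    have hD12 : (D : ℂ) ^ 12 ≠ 0 := pow_ne_zero _ hDC
    apply mul_left_cancel₀ hN11
    have hDD : (((D : ℝ) : ℂ)) = (D : ℂ) := by push_cast; rfl
    rw [hDD] at h3
    calc (N : ℂ) ^ 11 * ModularForm.discriminant (upperTriangularGL (e : ℝ) (B : ℝ) (D : ℝ) had • τ)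
        = (ModularForm.discriminant (upperTriangularGL (e : ℝ) (B : ℝ) (D : ℝ) had • τ) *
            (N : ℂ) ^ 11 * ((D : ℂ) ^ 12)⁻¹) * (D : ℂ) ^ 12 := by field_simp
      _ = ((N : ℂ) ^ 11 * ModularForm.discriminant (heckeDiagMatrix N • τ)) * (D : ℂ) ^ 12 := by
          rw [h3]
      _ = (N : ℂ) ^ 11 * ((D : ℂ) ^ 12 * ModularForm.discriminant (heckeDiagMatrix N • τ)) := by
          ring
  have hD1' := Scale.hermite_D_eq_one N he hD heD had h2
  rw [CongruenceSubgroup.Gamma0_mem]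
  exact (ZMod.intCast_zmod_eq_zero_iff_dvd _ _).mpr (hD1 hD1')

theorem Tw.scaledDelta (σ : ℂ →+* ℂ) (N : ℕ) [NeZero N] :
    Tw σ N 12 (⇑(scaledDelta N) : ℍ → ℂ) := by
  have hpb : PB (⇑(Fermat.Agent.S23.scaledDelta N) : ℍ → ℂ) :=
    PB.of_modularForm (CongruenceSubgroup.one_mem_strictPeriods_Gamma0 N)
      (Fermat.Agent.S23.scaledDelta N)
  refine ⟨hpb, ⇑(Fermat.Agent.S23.scaledDelta N), hpb, fun γ hγ => ?_,
    (qExp_scaledDelta_map σ N).symm⟩
  exact (Fermat.Agent.S23.scaledDelta N).slash_action_eq' _ (Subgroup.mem_map_of_mem _ hγ)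

end

end Fermat.Agent.S23
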