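import Mathlib
import Fermat.Prelude.Def_CuspForm_IntegralStructure
import Fermat.Prelude.Def_CuspForm_HeckeAlgebra
import Fermat.Prelude.Thm_ModularFormClass_qCoeff_heckeT
import Fermat.Prelude.Thm_ModularFormClass_qCoeff_heckeU
import Fermat.Prelude.Thm_CongruenceSubgroup_one_mem_strictPeriods_Gamma0
import Fermat.Agent.S22.Main
import Fermat.Agent.S23.Basic

set_option autoImplicit false

namespace Fermat.Agent.S23

open UpperHalfPlane hiding I
open Complex Filter ModularForm ModularFormClass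
open scoped MatrixGroups ModularForm Topology Manifold

noncomputable section

section

variable (N : ℕ)

/-- The `n`-th `q`-coefficient as a linear functional on `S₂(Γ₀(N))`. -/
def qc (n : ℕ) : CuspForm (CongruenceSubgroup.Gamma0 N) 2 →ₗ[ℂ] ℂ where
  toFun g := qCoeff g n
  map_add' g₁ g₂ := by
    have h1N := CongruenceSubgroup.one_mem_strictPeriods_Gamma0 N
    change (qExpansion 1 (⇑(g₁ + g₂) : ℍ → ℂ)).coeff n =
      (qExpansion 1 g₁).coeff n + (qExpansion 1 g₂).coeff n
    rw [FunLike.coe_add, qExp_add (PB.of_modularForm h1N g₁) (PB.of_modularForm h1N g₂), map_add]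
  map_smul' c g := by
    have h1N := CongruenceSubgroup.one_mem_strictPeriods_Gamma0 N
    change (qExpansion 1 (⇑(c • g) : ℍ → ℂ)).coeff n = c • (qExpansion 1 g).coeff n
    rw [FunLike.coe_smul, qExp_smul c (PB.of_modularForm h1N g), PowerSeries.coeff_smul]

theorem qc_apply (n : ℕ) (g : CuspForm (CongruenceSubgroup.Gamma0 N) 2) :
    qc N n g = qCoeff g n := rfl

theorem qc_heckeT {p : ℕ} (hp : p.Prime) (hpN : ¬ p ∣ N)
    (g : CuspForm (CongruenceSubgroup.Gamma0 N) 2) (n : ℕ) :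
    qc N n (CuspForm.heckeTLin 2 hp hpN g) =
      qc N (n * p) g + if p ∣ n then (p : ℂ) * qc N (n / p) g else 0 := by
  have h := ModularFormClass.qCoeff_heckeT g (CongruenceSubgroup.one_mem_strictPeriods_Gamma0 N)
    hp.ne_zero n
  rw [qc_apply, CuspForm.coe_heckeTLin_apply, h, ModularForm.coeffHeckeT_apply]
  simp [qc_apply]

theorem qc_heckeU [NeZero N] {p : ℕ} (hpN : p ∣ N) (hp : p.Prime)
    (g : CuspForm (CongruenceSubgroup.Gamma0 N) 2) (n : ℕ) :
    qc N n (CuspForm.heckeULin 2 hpN g) = qc N (n * p) g := by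
  have h := ModularFormClass.qCoeff_heckeU g (CongruenceSubgroup.one_mem_strictPeriods_Gamma0 N)
    hp.ne_zero n
  rw [qc_apply, CuspForm.coe_heckeULin_apply, h, ModularForm.coeffHeckeU_apply]
  rfl

theorem qc_zero_eq [NeZero N] (g : CuspForm (CongruenceSubgroup.Gamma0 N) 2) : qc N 0 g = 0 :=
  CuspFormClass.qExpansion_coeff_zero g one_pos
    (CongruenceSubgroup.one_mem_strictPeriods_Gamma0 N)

/-- Every `q`-coefficient is the first coefficient of a Hecke translate. -/
theorem exists_hecke_qc [NeZero N] : ∀ n : ℕ, 1 ≤ n →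
    ∃ t ∈ CuspForm.heckeAlgebra N 2 (∅ : Set ℕ),
      ∀ g : CuspForm (CongruenceSubgroup.Gamma0 N) 2, qc N 1 (t g) = qc N n g := by
  intro n
  induction n using Nat.strong_induction_on with
  | _ n ih =>
  intro hn
  rcases eq_or_lt_of_le hn with rfl | hn1
  · exact ⟨1, one_mem _, fun g => rfl⟩
  · have hp : (n.minFac).Prime := Nat.minFac_prime (by omega)
    obtain ⟨m, hm⟩ := Nat.minFac_dvd n
    set p := n.minFac with hpdef
    have hm1 : 1 ≤ m := by
      rcases Nat.eq_zero_or_pos m with rfl | h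
      · omega
      · exact h
    have hmn : m < n := by
      rw [hm]
      have := hp.one_lt
      nlinarith
    have hnm : n = m * p := by rw [hm, mul_comm]
    obtain ⟨tm, htm, htm'⟩ := ih m hmn hm1
    by_cases hpN : p ∣ N
    · refine ⟨tm * CuspForm.heckeULin 2 hpN,
        mul_mem htm (CuspForm.heckeULin_mem_heckeAlgebra hp hpN (by simp)), fun g => ?_⟩
      rw [Module.End.mul_apply, htm', qc_heckeU N hpN hp, hnm]
    · by_cases hpm : p ∣ m
      · obtain ⟨m', hm'⟩ := hpm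
        have hm'1 : 1 ≤ m' := by
          rcases Nat.eq_zero_or_pos m' with rfl | h
          · omega
          · exact h
        have hm'n : m' < n := by
          have := hp.one_lt
          nlinarith
        obtain ⟨tm', htm'1, htm'2⟩ := ih m' hm'n hm'1
        refine ⟨tm * CuspForm.heckeTLin 2 hp hpN - (p : ℤ) • tm',
          sub_mem (mul_mem htm (CuspForm.heckeTLin_mem_heckeAlgebra hp hpN (by simp)))
            (zsmul_mem htm'1 _), fun g => ?_⟩
        rw [LinearMap.sub_apply, map_sub, Module.End.mul_apply, htm', qc_heckeT N hp hpN,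
          LinearMap.smul_apply, map_zsmul, htm'2, if_pos ⟨m', hm'⟩, hnm]
        have : m / p = m' := by rw [hm', Nat.mul_div_cancel_left _ hp.pos]
        rw [this]
        simp
      · refine ⟨tm * CuspForm.heckeTLin 2 hp hpN,
          mul_mem htm (CuspForm.heckeTLin_mem_heckeAlgebra hp hpN (by simp)), fun g => ?_⟩
        rw [Module.End.mul_apply, htm', qc_heckeT N hp hpN, if_neg hpm, add_zero, hnm]

/-- Forms with rational `q`-expansion. -/
def IsRat (g : CuspForm (CongruenceSubgroup.Gamma0 N) 2) : Prop :=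
  ∀ n, ∃ r : ℚ, qc N n g = (r : ℂ)

theorem isRat_heckeAlgebra [NeZero N] {t : Module.End ℂ (CuspForm (CongruenceSubgroup.Gamma0 N) 2)}
    (ht : t ∈ CuspForm.heckeAlgebra N 2 (∅ : Set ℕ)) :
    ∀ g : CuspForm (CongruenceSubgroup.Gamma0 N) 2, IsRat N g → IsRat N (t g) := by
  induction ht using Algebra.adjoin_induction with
  | mem t ht =>
    intro g hg n
    rcases ht with ⟨ℓ, hℓ, hℓN, -, rfl⟩ | ⟨q, hqN, hq, -, rfl⟩
    · rw [qc_heckeT N hℓ hℓN]
      obtain ⟨r₁, hr₁⟩ := hg (n * ℓ)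
      obtain ⟨r₂, hr₂⟩ := hg (n / ℓ)
      split_ifs
      · exact ⟨r₁ + ℓ * r₂, by rw [hr₁, hr₂]; push_cast; ring⟩
      · exact ⟨r₁, by rw [hr₁, add_zero]⟩
    · rw [qc_heckeU N hqN hq]
      exact hg _
  | algebraMap r =>
    intro g hg n
    obtain ⟨r₁, hr₁⟩ := hg n
    refine ⟨r * r₁, ?_⟩
    rw [Module.algebraMap_end_apply, map_zsmul, hr₁]
    push_cast
    simp
  | add x y _ _ hx hy =>
    intro g hg n
    obtain ⟨r₁, hr₁⟩ := hx g hg n
    obtain ⟨r₂, hr₂⟩ := hy g hg n
    exact ⟨r₁ + r₂, by rw [LinearMap.add_apply, map_add, hr₁, hr₂]; push_cast; ring⟩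
  | mul x y _ _ hx hy =>
    intro g hg
    rw [Module.End.mul_apply]
    exact hx _ (hy g hg)

end

/-- Bounded denominators: a cusp form of weight `2` and level `Γ₀(N)` with rational
`q`-expansion has an integer multiple with integral `q`-expansion (uses that the Hecke algebra is
a finitely generated `ℤ`-module, `Fermat.Agent.S22.main`). -/
theorem exists_int_smul_integral (N : ℕ) [NeZero N]
    (f : CuspForm (CongruenceSubgroup.Gamma0 N) 2)
    (hf : ∀ n, ∃ r : ℚ, qCoeff f n = (r : ℂ)) :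
    ∃ D : ℤ, D ≠ 0 ∧ ∀ n, ∃ m : ℤ, qCoeff ((D : ℂ) • f) n = (m : ℂ) := by
  classical
  have hfin : Module.Finite ℤ (CuspForm.heckeAlgebra N 2 (∅ : Set ℕ)) :=
    Fermat.Agent.S22.main N 2 ∅
  obtain ⟨S, hS⟩ := Module.finite_def.mp hfin
  have hfr : IsRat N f := hf
  have hr : ∀ τ : CuspForm.heckeAlgebra N 2 (∅ : Set ℕ), ∃ r : ℚ,
      qc N 1 ((τ : Module.End ℂ (CuspForm (CongruenceSubgroup.Gamma0 N) 2)) f) = (r : ℂ) :=
    fun τ => isRat_heckeAlgebra N τ.2 f hfr 1
  choose r hr using hr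
  set D : ℕ := ∏ τ ∈ S, (r τ).den with hD
  have hD0 : D ≠ 0 := Finset.prod_ne_zero_iff.mpr fun τ _ => (r τ).den_nz
  have key : ∀ t : CuspForm.heckeAlgebra N 2 (∅ : Set ℕ), ∃ m : ℤ,
      (D : ℂ) * qc N 1 ((t : Module.End ℂ (CuspForm (CongruenceSubgroup.Gamma0 N) 2)) f) =
        (m : ℂ) := by
    intro t
    have ht : t ∈ Submodule.span ℤ (S : Set (CuspForm.heckeAlgebra N 2 (∅ : Set ℕ))) := by
      rw [hS]; exact Submodule.mem_top
    induction ht using Submodule.span_induction with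
    | mem τ hτ =>
      obtain ⟨e, he⟩ : (r τ).den ∣ D := Finset.dvd_prod_of_mem _ hτ
      refine ⟨e * (r τ).num, ?_⟩
      rw [hr τ, he]
      have h1 : ((r τ : ℚ) : ℂ) * ((r τ).den : ℂ) = ((r τ).num : ℂ) := by
        have := Rat.mul_den_eq_num (r τ)
        exact_mod_cast congrArg (fun q : ℚ => (q : ℂ)) this
      push_cast
      linear_combination (e : ℂ) * h1
    | zero => exact ⟨0, by simp⟩
    | add x y _ _ hx hy =>
      obtain ⟨m₁, hm₁⟩ := hx
      obtain ⟨m₂, hm₂⟩ := hy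
      refine ⟨m₁ + m₂, ?_⟩
      rw [Subalgebra.coe_add, LinearMap.add_apply, map_add, mul_add, hm₁, hm₂]
      push_cast
      ring
    | smul a x _ hx =>
      obtain ⟨m₁, hm₁⟩ := hx
      refine ⟨a * m₁, ?_⟩
      have : ((a • x : CuspForm.heckeAlgebra N 2 (∅ : Set ℕ)) :
          Module.End ℂ (CuspForm (CongruenceSubgroup.Gamma0 N) 2)) =
          a • (x : Module.End ℂ (CuspForm (CongruenceSubgroup.Gamma0 N) 2)) := rfl
      rw [this, LinearMap.smul_apply, map_zsmul]
      push_cast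
      rw [zsmul_eq_mul, ← hm₁]
      ring
  refine ⟨(D : ℤ), by exact_mod_cast hD0, fun n => ?_⟩
  change ∃ m : ℤ, qc N n (((D : ℤ) : ℂ) • f) = (m : ℂ)
  rw [map_smul, smul_eq_mul]
  rcases Nat.eq_zero_or_pos n with rfl | hn
  · exact ⟨0, by rw [qc_zero_eq]; simp⟩
  · obtain ⟨t, ht, htn⟩ := exists_hecke_qc N n hn
    obtain ⟨m, hm⟩ := key ⟨t, ht⟩
    exact ⟨m, by rw [← htn f, ← hm]; push_cast; rfl⟩

end

end Fermat.Agent.S23
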