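import Mathlib

set_option autoImplicit false

namespace Fermat.Agent.S23

noncomputable section

open MvPolynomial in
/-- A transcendental complex number is moved by some field automorphism of `ℂ`. -/
theorem descent_exists_ringEquiv_ne_of_transcendental (x : ℂ) (hx : Transcendental ℚ x) :
    ∃ σ : ℂ ≃+* ℂ, σ x ≠ x := by
  have hs : AlgebraicIndepOn ℚ id ({x} : Set ℂ) := by
    have : Subsingleton ({x} : Set ℂ) := (Set.subsingleton_singleton).coe_sort
    exact (algebraicIndependent_singleton_iff (⟨x, rfl⟩ : ({x} : Set ℂ))).mpr hx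
  obtain ⟨B, hxB, hB⟩ := exists_isTranscendenceBasis_superset hs
  let _ := IsAlgClosed.isAlgClosure_of_transcendence_basis ((↑) : B → ℂ) hB
  classical
  let b₀ : B := ⟨x, hxB rfl⟩
  let c : B → ℚ := fun b => if b = b₀ then 1 else 0
  let φ : MvPolynomial B ℚ ≃ₐ[ℚ] MvPolynomial B ℚ :=
    AlgEquiv.ofAlgHom (aeval fun b => X b + C (c b)) (aeval fun b => X b - C (c b))
      (by ext b; simp) (by ext b; simp)
  let e : Algebra.adjoin ℚ (Set.range ((↑) : B → ℂ)) ≃+* Algebra.adjoin ℚ (Set.range ((↑) : B → ℂ)) :=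
    hB.1.aevalEquiv.symm.toRingEquiv.trans (φ.toRingEquiv.trans hB.1.aevalEquiv.toRingEquiv)
  refine ⟨IsAlgClosure.equivOfEquiv ℂ ℂ e, ?_⟩
  have hx1 : x = algebraMap (Algebra.adjoin ℚ (Set.range ((↑) : B → ℂ))) ℂ
      (hB.1.aevalEquiv (X b₀)) := by
    rw [AlgebraicIndependent.algebraMap_aevalEquiv]
    simp [b₀]
  have he : e (hB.1.aevalEquiv (X b₀)) = hB.1.aevalEquiv (X b₀ + C 1) := by
    simp [e, φ, c]
  have hx2 : algebraMap (Algebra.adjoin ℚ (Set.range ((↑) : B → ℂ))) ℂ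
      (hB.1.aevalEquiv (X b₀ + C 1)) = x + 1 := by
    rw [AlgebraicIndependent.algebraMap_aevalEquiv]
    simp [b₀]
  intro h
  rw [hx1, IsAlgClosure.equivOfEquiv_algebraMap, he, hx2, ← hx1] at h
  simp at h

open MvPolynomial IntermediateField in
/-- An algebraic non-rational complex number is moved by some field automorphism of `ℂ`. -/
theorem descent_exists_ringEquiv_ne_of_isAlgebraic (x : ℂ) (hx : IsAlgebraic ℚ x)
    (hxq : x ∉ Set.range (algebraMap ℚ ℂ)) :
    ∃ σ : ℂ ≃+* ℂ, σ x ≠ x := by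
  let F : IntermediateField ℚ ℂ := algebraicClosure ℚ ℂ
  have hIsAlgCl : IsAlgClosure ℚ F := algebraicClosure.isAlgClosure ℚ ℂ
  have hGal : IsGalois ℚ F := ⟨⟩
  let x' : F := ⟨x, (mem_algebraicClosure_iff (F := ℚ) (E := ℂ)).mpr hx⟩
  have hx' : x' ∉ Set.range (algebraMap ℚ F) := by
    rintro ⟨r, hr⟩
    exact hxq ⟨r, congrArg Subtype.val hr⟩
  obtain ⟨τ, hτ⟩ : ∃ τ : F ≃ₐ[ℚ] F, τ x' ≠ x' := by
    by_contra h
    push Not at h
    exact hx' ((InfiniteGalois.mem_range_algebraMap_iff_fixed x').mpr h)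
  obtain ⟨ι, v, hv⟩ := exists_isTranscendenceBasis' ℚ ℂ
  have hvF : IsTranscendenceBasis F v := (Algebra.IsAlgebraic.isTranscendenceBasis_iff ℚ F).mp hv
  let _ := IsAlgClosed.isAlgClosure_of_transcendence_basis v hvF
  let e : Algebra.adjoin F (Set.range v) ≃+* Algebra.adjoin F (Set.range v) :=
    hvF.1.aevalEquiv.symm.toRingEquiv.trans
      ((MvPolynomial.mapEquiv ι τ.toRingEquiv).trans hvF.1.aevalEquiv.toRingEquiv)
  refine ⟨IsAlgClosure.equivOfEquiv ℂ ℂ e, ?_⟩
  have hx1 : ∀ y : F, (y : ℂ) = algebraMap (Algebra.adjoin F (Set.range v)) ℂ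
      (hvF.1.aevalEquiv (C y)) := by
    intro y
    rw [AlgebraicIndependent.algebraMap_aevalEquiv]
    simp
  have he : e (hvF.1.aevalEquiv (C x')) = hvF.1.aevalEquiv (C (τ x')) := by
    simp [e]
  intro h
  have hxx : x = (x' : ℂ) := rfl
  rw [hxx, hx1 x', IsAlgClosure.equivOfEquiv_algebraMap, he, ← hx1, ← hx1] at h
  exact hτ (Subtype.ext h)

/-- The fixed field of `Aut(ℂ)` is `ℚ`. -/
theorem exists_ringEquiv_ne (x : ℂ) (hx : ∀ r : ℚ, x ≠ (r : ℂ)) : ∃ σ : ℂ ≃+* ℂ, σ x ≠ x := by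
  by_cases hx' : IsAlgebraic ℚ x
  · refine descent_exists_ringEquiv_ne_of_isAlgebraic x hx' ?_
    rintro ⟨r, hr⟩
    exact hx r (by rw [← hr]; simp)
  · exact descent_exists_ringEquiv_ne_of_transcendental x hx'

/-- Ring-hom version. -/
theorem exists_ringHom_ne (x : ℂ) (hx : ∀ r : ℚ, x ≠ (r : ℂ)) :
    ∃ σ : ℂ →+* ℂ, σ x ≠ x := by
  obtain ⟨σ, hσ⟩ := exists_ringEquiv_ne x hx
  exact ⟨σ.toRingHom, hσ⟩

/-- A complex number fixed by all field automorphisms of `ℂ` is rational. -/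
theorem descent_rational_of_fixed (x : ℂ) (hx : ∀ σ : ℂ ≃+* ℂ, σ x = x) : ∃ r : ℚ, x = (r : ℂ) := by
  by_contra h
  push Not at h
  obtain ⟨σ, hσ⟩ := exists_ringEquiv_ne x h
  exact hσ (hx σ)

/-- Auxiliary induction for Galois descent: if the coordinates in a finite set `T` separate the
points of a coefficientwise-stable subspace, it is spanned by its rational points. -/
theorem descent_span_aux {ι : Type*} (T : Finset ι) : ∀ (V : Submodule ℂ (ι → ℂ)),
    (∀ σ : ℂ ≃+* ℂ, ∀ v ∈ V, (fun n => σ (v n)) ∈ V) →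
    (∀ v ∈ V, (∀ j ∈ T, v j = 0) → v = 0) →
    V ≤ Submodule.span ℂ {v | v ∈ V ∧ ∀ n, ∃ r : ℚ, v n = (r : ℂ)} := by
  classical
  induction T using Finset.induction_on with
  | empty =>
    intro V _ hinj v hv
    rw [hinj v hv (fun j hj => absurd hj (Finset.notMem_empty j))]
    exact Submodule.zero_mem _
  | insert m T hmT ih =>
    intro V hσ hinj
    by_cases h0 : ∀ v ∈ V, (∀ j ∈ T, v j = 0) → v = 0
    · exact ih V hσ h0
    · push Not at h0
      obtain ⟨w, hwV, hw0, hwne⟩ := h0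
      have hwm : w m ≠ 0 := by
        intro hwm
        apply hwne
        apply hinj w hwV
        intro j hj
        rcases Finset.mem_insert.mp hj with h | h
        · rw [h]; exact hwm
        · exact hw0 j h
      -- the normalised vector `u`
      set u : ι → ℂ := (w m)⁻¹ • w with hu
      have huV : u ∈ V := V.smul_mem _ hwV
      have hu0 : ∀ j ∈ T, u j = 0 := by
        intro j hj
        simp [hu, hw0 j hj]
      have hum : u m = 1 := by
        simp [hu, inv_mul_cancel₀ hwm]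
      -- `u` is fixed by every automorphism
      have hufix : ∀ σ : ℂ ≃+* ℂ, (fun n => σ (u n)) = u := by
        intro σ
        have hmem : (fun n => σ (u n)) - u ∈ V := V.sub_mem (hσ σ u huV) huV
        have hz := hinj _ hmem (by
          intro j hj
          rcases Finset.mem_insert.mp hj with h | h
          · simp [h, hum]
          · simp [hu0 j h])
        exact sub_eq_zero.mp hz
      have hurat : ∀ n, ∃ r : ℚ, u n = (r : ℂ) := fun n =>
        descent_rational_of_fixed (u n) (fun σ => congrFun (hufix σ) n)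
      -- the hyperplane section
      let V' : Submodule ℂ (ι → ℂ) :=
        V ⊓ LinearMap.ker (LinearMap.proj (R := ℂ) (φ := fun _ : ι => ℂ) m)
      have hV'mem : ∀ v, v ∈ V' ↔ v ∈ V ∧ v m = 0 := by
        intro v
        simp [V', LinearMap.mem_ker]
      have hσ' : ∀ σ : ℂ ≃+* ℂ, ∀ v ∈ V', (fun n => σ (v n)) ∈ V' := by
        intro σ v hv
        rw [hV'mem] at hv ⊢
        exact ⟨hσ σ v hv.1, by simp [hv.2]⟩
      have hinj' : ∀ v ∈ V', (∀ j ∈ T, v j = 0) → v = 0 := by
        intro v hv hv0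
        rw [hV'mem] at hv
        apply hinj v hv.1
        intro j hj
        rcases Finset.mem_insert.mp hj with h | h
        · rw [h]; exact hv.2
        · exact hv0 j h
      have ih' := ih V' hσ' hinj'
      have hmono : Submodule.span ℂ {v | v ∈ V' ∧ ∀ n, ∃ r : ℚ, v n = (r : ℂ)}
          ≤ Submodule.span ℂ {v | v ∈ V ∧ ∀ n, ∃ r : ℚ, v n = (r : ℂ)} := by
        apply Submodule.span_mono
        rintro v ⟨hv, hvr⟩
        exact ⟨((hV'mem v).mp hv).1, hvr⟩
      intro v hv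
      have hdecomp : v = (v - v m • u) + v m • u := by abel
      rw [hdecomp]
      refine Submodule.add_mem _ (hmono (ih' ?_))
        (Submodule.smul_mem _ _ (Submodule.subset_span ⟨huV, hurat⟩))
      rw [hV'mem]
      exact ⟨V.sub_mem hv (V.smul_mem _ huV), by simp [hum]⟩

/-- Galois descent for subspaces of `ℂ^m`: a subspace stable under all (coordinatewise)
automorphisms of `ℂ` is spanned by its rational vectors. -/
theorem span_rational_of_stable {m : ℕ} (W : Submodule ℂ (Fin m → ℂ))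
    (hW : ∀ σ : ℂ ≃+* ℂ, ∀ w ∈ W, (fun i => σ (w i)) ∈ W) :
    W ≤ Submodule.span ℂ {w | w ∈ W ∧ ∀ i, ∃ r : ℚ, w i = (r : ℂ)} :=
  descent_span_aux Finset.univ W hW (fun _ _ h => funext fun j => h j (Finset.mem_univ j))

/-- In a finite-dimensional space of sequences, finitely many coordinates separate points. -/
theorem descent_exists_separating (V : Submodule ℂ (ℕ → ℂ)) [FiniteDimensional ℂ V] :
    ∃ m : ℕ, ∀ v ∈ V, (∀ j, j < m → v j = 0) → v = 0 := by
  let K : ℕ → Submodule ℂ (ℕ → ℂ) := fun m =>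
    { carrier := {v | v ∈ V ∧ ∀ j, j < m → v j = 0}
      add_mem' := by
        rintro a b ⟨ha, ha0⟩ ⟨hb, hb0⟩
        exact ⟨V.add_mem ha hb, fun j hj => by simp [ha0 j hj, hb0 j hj]⟩
      zero_mem' := ⟨V.zero_mem, fun j _ => rfl⟩
      smul_mem' := by
        rintro c a ⟨ha, ha0⟩
        exact ⟨V.smul_mem c ha, fun j hj => by simp [ha0 j hj]⟩ }
  have hKV : ∀ m, K m ≤ V := fun m v hv => hv.1
  have hfd : ∀ m, FiniteDimensional ℂ (K m) := fun m => Submodule.finiteDimensional_of_le (hKV m)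
  have hanti : ∀ m n, m ≤ n → K n ≤ K m := by
    intro m n hmn v hv
    exact ⟨hv.1, fun j hj => hv.2 j (lt_of_lt_of_le hj hmn)⟩
  obtain ⟨m₀, hm₀⟩ : ∃ m₀, ∀ m, Module.finrank ℂ (K m₀) ≤ Module.finrank ℂ (K m) := by
    have hne : (Set.range fun m => Module.finrank ℂ (K m)).Nonempty := ⟨_, ⟨0, rfl⟩⟩
    obtain ⟨m₀, hm₀⟩ := Nat.sInf_mem hne
    refine ⟨m₀, fun m => ?_⟩
    have hm₀' : Module.finrank ℂ (K m₀) = sInf (Set.range fun m => Module.finrank ℂ (K m)) := hm₀
    rw [hm₀']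
    exact Nat.sInf_le ⟨m, rfl⟩
  refine ⟨m₀, fun v hv hv0 => ?_⟩
  have hvK : v ∈ K m₀ := ⟨hv, hv0⟩
  funext n
  have hle : m₀ ≤ max m₀ (n + 1) := le_max_left _ _
  have heq : K (max m₀ (n + 1)) = K m₀ := by
    have := hfd m₀
    exact Submodule.eq_of_le_of_finrank_le (hanti _ _ hle) (hm₀ _)
  have hvK' : v ∈ K (max m₀ (n + 1)) := by rw [heq]; exact hvK
  exact hvK'.2 n (lt_of_lt_of_le (Nat.lt_succ_self n) (le_max_right _ _))

/-- **Galois descent for spaces of sequences.**  A finite-dimensional space of complex sequences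
which is stable under every field automorphism of `ℂ` (acting coefficientwise) is spanned by
its rational points. -/
theorem descent_rational_span (V : Submodule ℂ (ℕ → ℂ)) [FiniteDimensional ℂ V]
    (hV : ∀ σ : ℂ ≃+* ℂ, ∀ v ∈ V, (fun n => σ (v n)) ∈ V) :
    V = Submodule.span ℂ {v | v ∈ V ∧ ∀ n, ∃ r : ℚ, v n = (r : ℂ)} := by
  apply le_antisymm
  · obtain ⟨m, hm⟩ := descent_exists_separating V
    exact descent_span_aux (Finset.range m) V hV
      (fun v hv h => hm v hv (fun j hj => h j (Finset.mem_range.mpr hj)))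
  · apply Submodule.span_le.mpr
    rintro v ⟨hv, -⟩
    exact hv

end

end Fermat.Agent.S23
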