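import Mathlib
import Fermat.Agent.S23.Sym
import Fermat.Agent.S23.Scale
import Fermat.Agent.S23.Division

set_option autoImplicit false

namespace Fermat.Agent.S23

open UpperHalfPlane hiding I
open Complex Filter ModularForm ModularFormClass SlashInvariantForm
open scoped MatrixGroups ModularForm Topology Manifold Polynomial
open Polynomial

noncomputable section

/-- Pure algebra (Lagrange interpolation / divided differences): for a finite family `x` with
characteristic polynomial `Φ = ∏ (X - x q)` and any family `y`,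
`∑_{n<d} ∑_{n<i≤d} x₀ⁿ Φ_i ∑_q y_q x_q^{i-n-1} = y₀ ∏_{q ≠ q₀} (x₀ - x_q)`. -/
theorem lagrange_identity {ι : Type*} [Fintype ι] [DecidableEq ι] (x y : ι → ℂ) (i₀ : ι) :
    ∑ n ∈ Finset.range (Fintype.card ι), ∑ i ∈ Finset.Icc (n + 1) (Fintype.card ι),
      x i₀ ^ n * (∏ q : ι, (Polynomial.X - Polynomial.C (x q))).coeff i *
        ∑ q : ι, y q * x q ^ (i - (n + 1))
      = y i₀ * ∏ q ∈ Finset.univ.erase i₀, (x i₀ - x q) := by
  set Φ : ℂ[X] := ∏ q : ι, (X - C (x q)) with hΦ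
  have hdeg : Φ.natDegree = Fintype.card ι := by
    rw [hΦ, natDegree_finsetProd_X_sub_C_eq_card, Finset.card_univ]
  have hdiv : ∀ q : ι, Φ /ₘ (X - C (x q)) = ∏ q' ∈ Finset.univ.erase q, (X - C (x q')) := by
    intro q
    rw [hΦ, ← Finset.mul_prod_erase Finset.univ (fun q => X - C (x q)) (Finset.mem_univ q)]
    exact mul_divByMonic_cancel_left _ (monic_X_sub_C _)
  have heval : ∀ q : ι, eval (x i₀) (Φ /ₘ (X - C (x q))) =
      ∑ n ∈ Finset.range (Fintype.card ι), (∑ i ∈ Finset.Icc (n + 1) (Fintype.card ι),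
        x q ^ (i - (n + 1)) * Φ.coeff i) * x i₀ ^ n := by
    intro q
    have hlt : (Φ /ₘ (X - C (x q))).natDegree < Fintype.card ι := by
      rw [natDegree_divByMonic _ (monic_X_sub_C _), hdeg, natDegree_X_sub_C]
      have : 0 < Fintype.card ι := Fintype.card_pos_iff.mpr ⟨i₀⟩
      omega
    rw [eval_eq_sum_range' hlt]
    refine Finset.sum_congr rfl fun n _ => ?_
    rw [coeff_divByMonic_X_sub_C, hdeg]
  have hsum : ∑ q : ι, y q * eval (x i₀) (Φ /ₘ (X - C (x q)))
      = y i₀ * ∏ q ∈ Finset.univ.erase i₀, (x i₀ - x q) := by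
    rw [Finset.sum_eq_single i₀]
    · rw [hdiv, eval_prod]
      simp
    · intro q _ hq
      rw [hdiv, eval_prod, Finset.prod_eq_zero (i := i₀) (by simp [Ne.symm hq]) (by simp), mul_zero]
    · intro h; exact absurd (Finset.mem_univ _) h
  rw [← hsum]
  simp_rw [heval]
  calc _ = ∑ n ∈ Finset.range (Fintype.card ι), ∑ i ∈ Finset.Icc (n + 1) (Fintype.card ι),
        ∑ q : ι, y q * (x q ^ (i - (n + 1)) * Φ.coeff i * x i₀ ^ n) := by
        refine Finset.sum_congr rfl fun n _ => Finset.sum_congr rfl fun i _ => ?_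
        rw [Finset.mul_sum]
        exact Finset.sum_congr rfl fun q _ => by ring
    _ = ∑ n ∈ Finset.range (Fintype.card ι), ∑ q : ι, ∑ i ∈ Finset.Icc (n + 1) (Fintype.card ι),
        y q * (x q ^ (i - (n + 1)) * Φ.coeff i * x i₀ ^ n) :=
        Finset.sum_congr rfl fun n _ => Finset.sum_comm
    _ = ∑ q : ι, ∑ n ∈ Finset.range (Fintype.card ι), ∑ i ∈ Finset.Icc (n + 1) (Fintype.card ι),
        y q * (x q ^ (i - (n + 1)) * Φ.coeff i * x i₀ ^ n) := Finset.sum_comm
    _ = _ := by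
        refine Finset.sum_congr rfl fun q _ => ?_
        rw [Finset.mul_sum]
        refine Finset.sum_congr rfl fun n _ => ?_
        rw [Finset.sum_mul, Finset.mul_sum]

theorem quotientFunc_one {N : ℕ} [NeZero N] {k : ℤ} {F : Type*} [FunLike F ℍ ℂ]
    [SlashInvariantFormClass F (CongruenceSubgroup.Gamma0 N : Subgroup (GL (Fin 2) ℝ)) k]
    (u : F) : quotientFunc u (⟦1⟧ : Q0 N) = (u : ℍ → ℂ) := by
  rw [quotientFunc_mk]
  simp

/-- pointwise Vieta: a member of a finite family is a root of its characteristic polynomial,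
expanded through elementary symmetric functions. -/
theorem vieta_root {ι : Type*} [Fintype ι] [DecidableEq ι] (a : ι → ℂ) (i₀ : ι) :
    a i₀ ^ (Fintype.card ι) + ∑ s ∈ Finset.range (Fintype.card ι),
      ((-1) ^ (s + 1) * ∑ t ∈ (Finset.univ : Finset ι).powersetCard (s + 1), ∏ q ∈ t, a q) *
        a i₀ ^ (Fintype.card ι - 1 - s) = 0 := by
  have h := Multiset.prod_X_sub_X_eq_sum_esymm ((Finset.univ : Finset ι).val.map a)
  have hcard : ((Finset.univ : Finset ι).val.map a).card = Fintype.card ι := by simp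
  rw [hcard] at h
  have h0 : Polynomial.eval (a i₀) ((Multiset.map (fun t => Polynomial.X - Polynomial.C t)
      ((Finset.univ : Finset ι).val.map a)).prod) = 0 := by
    rw [Multiset.map_map]
    change Polynomial.eval (a i₀) (∏ q : ι, (Polynomial.X - Polynomial.C (a q))) = 0
    rw [Polynomial.eval_prod]
    exact Finset.prod_eq_zero (Finset.mem_univ i₀) (by simp)
  rw [h, Polynomial.eval_finsetSum, Finset.sum_range_succ'] at h0
  simp only [Polynomial.eval_mul, Polynomial.eval_pow, Polynomial.eval_neg, Polynomial.eval_one,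
    Polynomial.eval_C, Polynomial.eval_X, Finset.esymm_map_val] at h0
  rw [← h0, add_comm]
  congr 1
  · refine Finset.sum_congr rfl fun s hs => ?_
    have : Fintype.card ι - (s + 1) = Fintype.card ι - 1 - s := by omega
    rw [this]
    ring
  · simp

theorem exists_monic_eq (N : ℕ) [NeZero N] (f : CuspForm (CongruenceSubgroup.Gamma0 N) 2) :
    ∃ (d : ℕ) (c : ℕ → ℍ → ℂ), 0 < d ∧
      (∀ s, s < d → ∃ G : CuspForm 𝒮ℒ (((s + 1 : ℕ) : ℤ) * 2), (⇑G : ℍ → ℂ) = c s) ∧
      ∀ z, f z ^ d + ∑ s ∈ Finset.range d, c s z * f z ^ (d - 1 - s) = 0 := by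
  classical
  refine ⟨Fintype.card (Q0 N),
    fun s => ((-1 : ℂ) ^ (s + 1)) • es (quotientFunc f : Q0 N → ℍ → ℂ) (s + 1),
    Fintype.card_pos, fun s _ => ?_, fun z => ?_⟩
  · obtain ⟨G, hG⟩ := es_cuspForm f (s + 1) (Nat.succ_pos s)
    exact ⟨((-1 : ℂ) ^ (s + 1)) • G, by rw [FunLike.coe_smul, hG]⟩
  · have h := vieta_root (fun q : Q0 N => quotientFunc f q z) ⟦1⟧
    have h1 : quotientFunc f (⟦1⟧ : Q0 N) z = f z := by rw [quotientFunc_one]
    simp only [h1] at h
    rw [← h]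
    congr 1
    refine Finset.sum_congr rfl fun s _ => ?_
    simp [es_apply]


section frac

variable {N : ℕ} [NeZero N]

/-- Coefficients of the characteristic polynomial of the conjugates of `u`. -/
def charCoeff {k : ℤ} (u : ModularForm (CongruenceSubgroup.Gamma0 N) k) (i : ℕ) : ℍ → ℂ :=
  fun z => (∏ q : Q0 N, (Polynomial.X - Polynomial.C (quotientFunc u q z))).coeff i

theorem charCoeff_eq {k : ℤ} (u : ModularForm (CongruenceSubgroup.Gamma0 N) k) (i : ℕ)
    (hi : i ≤ Fintype.card (Q0 N)) :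
    charCoeff u i = ((-1 : ℂ) ^ (Fintype.card (Q0 N) - i)) •
      es (quotientFunc u : Q0 N → ℍ → ℂ) (Fintype.card (Q0 N) - i) := by
  classical
  funext z
  have hcard : ((Finset.univ : Finset (Q0 N)).val.map fun q => quotientFunc u q z).card =
      Fintype.card (Q0 N) := by simp
  have h := Multiset.prod_X_sub_C_coeff
    ((Finset.univ : Finset (Q0 N)).val.map fun q => quotientFunc u q z) (k := i) (by rw [hcard]; exact hi)
  rw [hcard, Multiset.map_map, Finset.esymm_map_val] at h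
  rw [charCoeff, Pi.smul_apply, es_apply, smul_eq_mul]
  exact h

theorem Tw.charCoeff (σ : ℂ →+* ℂ) {k : ℤ} (u : ModularForm (CongruenceSubgroup.Gamma0 N) k)
    (i : ℕ) (hi : i ≤ Fintype.card (Q0 N)) :
    Tw σ N (((Fintype.card (Q0 N) - i : ℕ) : ℤ) * k) (charCoeff u i) := by
  rw [charCoeff_eq u i hi]
  obtain ⟨G, hG⟩ := es_modularForm u (Fintype.card (Q0 N) - i)
  rw [← hG]
  exact (Tw.of_levelOne σ N G).smul _

/-- The Lagrange sum. -/
def lagSum {k kg : ℤ} {F : Type*} [FunLike F ℍ ℂ]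
    [SlashInvariantFormClass F (CongruenceSubgroup.Gamma0 N : Subgroup (GL (Fin 2) ℝ)) kg]
    (g : F) (u : ModularForm (CongruenceSubgroup.Gamma0 N) k) : ℍ → ℂ :=
  ∑ n ∈ Finset.range (Fintype.card (Q0 N)), ∑ i ∈ Finset.Icc (n + 1) (Fintype.card (Q0 N)),
    (⇑u : ℍ → ℂ) ^ n * charCoeff u i *
      ptr (quotientFunc g : Q0 N → ℍ → ℂ) (quotientFunc u) (i - (n + 1))

open scoped Classical in
theorem lagSum_apply {k kg : ℤ} {F : Type*} [FunLike F ℍ ℂ]
    [SlashInvariantFormClass F (CongruenceSubgroup.Gamma0 N : Subgroup (GL (Fin 2) ℝ)) kg]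
    (g : F) (u : ModularForm (CongruenceSubgroup.Gamma0 N) k) (z : ℍ) :
    lagSum g u z = g z * ∏ q ∈ (Finset.univ : Finset (Q0 N)).erase ⟦1⟧,
      (u z - quotientFunc u q z) := by
  classical
  have h := lagrange_identity (fun q : Q0 N => quotientFunc u q z)
    (fun q : Q0 N => quotientFunc g q z) ⟦1⟧
  have h1 : quotientFunc u (⟦1⟧ : Q0 N) z = u z := by rw [quotientFunc_one]
  have h2 : quotientFunc g (⟦1⟧ : Q0 N) z = g z := by rw [quotientFunc_one]
  simp only [h1, h2] at h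
  rw [← h]
  simp only [lagSum, Finset.sum_apply, Pi.mul_apply, Pi.pow_apply, ptr_apply, charCoeff]

theorem Tw.lagSum (σ : ℂ →+* ℂ) {k kg : ℤ} {F : Type*} [FunLike F ℍ ℂ]
    [ModularFormClass F (CongruenceSubgroup.Gamma0 N : Subgroup (GL (Fin 2) ℝ)) kg]
    (g : F) (u : ModularForm (CongruenceSubgroup.Gamma0 N) k) (hu : Tw σ N k (⇑u : ℍ → ℂ)) :
    Tw σ N (kg + ((Fintype.card (Q0 N) - 1 : ℕ) : ℤ) * k) (lagSum g u) := by
  have hd : 0 < Fintype.card (Q0 N) := Fintype.card_pos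
  refine Tw.sum _ fun n hn => Tw.sum _ fun i hi => ?_
  rw [Finset.mem_range] at hn
  rw [Finset.mem_Icc] at hi
  obtain ⟨G, hG⟩ := ptr_modularForm (N := N) g u (i - (n + 1))
  rw [← hG]
  refine (((hu.pow n).mul (Tw.charCoeff σ u i hi.2)).mul (Tw.of_levelOne σ N G)).congr ?_
  have e1 : ((Fintype.card (Q0 N) - i : ℕ) : ℤ) = (Fintype.card (Q0 N) : ℤ) - i := by
    rw [Nat.cast_sub hi.2]
  have e2 : ((i - (n + 1) : ℕ) : ℤ) = (i : ℤ) - (n + 1) := by
    rw [Nat.cast_sub hi.1]; push_cast; ring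
  have e3 : ((Fintype.card (Q0 N) - 1 : ℕ) : ℤ) = (Fintype.card (Q0 N) : ℤ) - 1 := by
    rw [Nat.cast_sub hd]; simp
  rw [e1, e2, e3]
  ring

theorem prod_ne_zero_mdiff {ι : Type} (s : Finset ι) (G : ι → ℍ → ℂ)
    (hG : ∀ i ∈ s, MDiff (G i)) (h0 : ∀ i ∈ s, G i ≠ 0) : ∏ i ∈ s, G i ≠ 0 := by
  classical
  induction s using Finset.induction_on with
  | empty =>
    rw [Finset.prod_empty]
    intro h
    have := congrFun h UpperHalfPlane.I
    simp at this
  | insert a s ha ih =>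
    rw [Finset.prod_insert ha]
    intro h
    have hs : ∏ i ∈ s, G i ≠ 0 :=
      ih (fun i hi => hG i (Finset.mem_insert_of_mem hi)) (fun i hi => h0 i (Finset.mem_insert_of_mem hi))
    have hmd : MDiff (∏ i ∈ s, G i) :=
      MDifferentiable.prod fun i hi => hG i (Finset.mem_insert_of_mem hi)
    exact h0 a (Finset.mem_insert_self a s)
      (eq_zero_of_mul_eq_zero_mdiff (hG a (Finset.mem_insert_self a s)) hmd hs
        fun z => by simpa using congrFun h z)

theorem quotientFunc_scaledDelta_ne (q : Q0 N) (hq : q ≠ ⟦1⟧) :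
    (⇑(scaledDelta N) : ℍ → ℂ) - quotientFunc (scaledDelta N) q ≠ 0 := by
  induction q using Quotient.inductionOn with
  | h r =>
    intro h0
    apply hq
    obtain ⟨γ, hγ⟩ := r.2
    have h1 : (⇑(scaledDelta N) : ℍ → ℂ) ∣[(12 : ℤ)] γ⁻¹ = ⇑(scaledDelta N) := by
      have h2 : quotientFunc (scaledDelta N) (⟦r⟧ : Q0 N) = ⇑(scaledDelta N) :=
        (sub_eq_zero.mp h0).symm
      rw [quotientFunc_mk, ← hγ, ← map_inv] at h2
      exact h2
    have h3 := mem_Gamma0_of_slash_scaledDelta N γ⁻¹ h1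
    have h4 : γ ∈ CongruenceSubgroup.Gamma0 N := by simpa using inv_mem h3
    symm
    rw [Quotient.eq]
    rw [QuotientGroup.leftRel_apply, Subgroup.mem_subgroupOf]
    simp only [inv_one, one_mul]
    exact ⟨γ, h4, hγ⟩

/-- Every cusp form of weight `2` and level `Γ₀(N)` is a quotient of two twistable forms. -/
theorem exists_fraction (σ : ℂ →+* ℂ) (N : ℕ) [NeZero N]
    (f : CuspForm (CongruenceSubgroup.Gamma0 N) 2) :
    ∃ (k : ℤ) (Q R : ℍ → ℂ), Tw σ N k Q ∧ Tw σ N (k + 2) R ∧ Q ≠ 0 ∧ ∀ z, f z * Q z = R z := by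
  classical
  refine ⟨((Fintype.card (Q0 N) - 1 : ℕ) : ℤ) * 12,
    lagSum (1 : ModularForm (CongruenceSubgroup.Gamma0 N) 0) (scaledDelta N),
    lagSum f (scaledDelta N), ?_, ?_, ?_, ?_⟩
  · exact (Tw.lagSum σ (1 : ModularForm (CongruenceSubgroup.Gamma0 N) 0) (scaledDelta N)
      (Tw.scaledDelta σ N)).congr (by ring)
  · exact (Tw.lagSum σ f (scaledDelta N) (Tw.scaledDelta σ N)).congr (by ring)
  · have hprod : (∏ q ∈ (Finset.univ : Finset (Q0 N)).erase ⟦1⟧,
        ((⇑(scaledDelta N) : ℍ → ℂ) - quotientFunc (scaledDelta N) q)) ≠ 0 := by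
      refine prod_ne_zero_mdiff _ _ (fun q _ => ?_) (fun q hq => ?_)
      · exact (ModularFormClass.holo (scaledDelta N)).sub (mdiff_quotientFunc (scaledDelta N) q)
      · exact quotientFunc_scaledDelta_ne q (Finset.ne_of_mem_erase hq)
    intro h0
    apply hprod
    funext z
    have := congrFun h0 z
    rw [lagSum_apply] at this
    simpa [Finset.prod_apply] using this
  · intro z
    rw [lagSum_apply, lagSum_apply]
    simp

end frac

end

end Fermat.Agent.S23
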