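import Mathlib
import Fermat.Prelude.Thm_CongruenceSubgroup_one_mem_strictPeriods_Gamma0
import Fermat.Agent.S23.Lagrange
import Fermat.Agent.S23.Division

set_option autoImplicit false

namespace Fermat.Agent.S23

open UpperHalfPlane hiding I
open Complex Filter ModularForm ModularFormClass SlashInvariantForm
open scoped MatrixGroups ModularForm Topology Manifold

noncomputable section

theorem monic_scale {d : ℕ} (c : ℕ → ℂ) (x q : ℂ) :
    (x * q) ^ d + ∑ s ∈ Finset.range d, c s * q ^ (s + 1) * (x * q) ^ (d - 1 - s) =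
      q ^ d * (x ^ d + ∑ s ∈ Finset.range d, c s * x ^ (d - 1 - s)) := by
  rw [mul_add, Finset.mul_sum, mul_pow]
  congr 1
  · ring
  · refine Finset.sum_congr rfl fun s hs => ?_
    rw [Finset.mem_range] at hs
    have : q ^ d = q ^ (s + 1) * q ^ (d - 1 - s) := by
      rw [← pow_add]; congr 1; omega
    rw [this, mul_pow]
    ring

/-- The monic expression `R^d + ∑ c_s Q^(s+1) R^(d-1-s)`. -/
def monicExpr (d : ℕ) (c : ℕ → ℍ → ℂ) (Q R : ℍ → ℂ) : ℍ → ℂ :=
  R ^ d + ∑ s ∈ Finset.range d, c s * Q ^ (s + 1) * R ^ (d - 1 - s)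

theorem monicExpr_apply (d : ℕ) (c : ℕ → ℍ → ℂ) (Q R : ℍ → ℂ) (z : ℍ) :
    monicExpr d c Q R z =
      R z ^ d + ∑ s ∈ Finset.range d, c s z * Q z ^ (s + 1) * R z ^ (d - 1 - s) := by
  simp [monicExpr, Finset.sum_apply]

theorem PB.monicExpr {d : ℕ} {c : ℕ → ℍ → ℂ} {Q R : ℍ → ℂ} (hc : ∀ s, s < d → PB (c s))
    (hQ : PB Q) (hR : PB R) : PB (monicExpr d c Q R) :=
  (hR.pow d).add (PB.sum _ fun s hs =>
    ((hc s (Finset.mem_range.mp hs)).mul (hQ.pow _)).mul (hR.pow _))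

theorem qExp_monicExpr {d : ℕ} {c : ℕ → ℍ → ℂ} {Q R : ℍ → ℂ} (hc : ∀ s, s < d → PB (c s))
    (hQ : PB Q) (hR : PB R) :
    qExpansion 1 (monicExpr d c Q R) = qExpansion 1 R ^ d +
      ∑ s ∈ Finset.range d, qExpansion 1 (c s) * qExpansion 1 Q ^ (s + 1) *
        qExpansion 1 R ^ (d - 1 - s) := by
  unfold Fermat.Agent.S23.monicExpr
  rw [qExp_add (hR.pow d) (PB.sum _ fun s hs =>
    ((hc s (Finset.mem_range.mp hs)).mul (hQ.pow _)).mul (hR.pow _)), qExp_pow hR,
    qExp_sum _ fun s hs => ((hc s (Finset.mem_range.mp hs)).mul (hQ.pow _)).mul (hR.pow _)]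
  congr 1
  refine Finset.sum_congr rfl fun s hs => ?_
  rw [qExp_mul ((hc s (Finset.mem_range.mp hs)).mul (hQ.pow _)) (hR.pow _),
    qExp_mul (hc s (Finset.mem_range.mp hs)) (hQ.pow _), qExp_pow hQ, qExp_pow hR]

theorem slash_pow_SL (F : ℍ → ℂ) (d : ℕ) (γ : SL(2, ℤ)) :
    (F ^ d) ∣[(d : ℤ) * 2] γ = (F ∣[(2 : ℤ)] γ) ^ d := by
  have h := slash_mul_pow 0 2 (h := (Matrix.SpecialLinearGroup.mapGL ℝ γ : GL (Fin 2) ℝ))
    (Subgroup.HasDetPlusMinusOne.abs_det (Γ := 𝒮ℒ) ⟨γ, rfl⟩) 1 F d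
  rw [one_mul, zero_add] at h
  have h1 : (1 : ℍ → ℂ) ∣[(0 : ℤ)] (Matrix.SpecialLinearGroup.mapGL ℝ γ : GL (Fin 2) ℝ) = 1 :=
    ModularForm.is_invariant_one' γ
  rw [h1, one_mul] at h
  exact h

theorem slash_mul_pow_SL (k : ℤ) (A F : ℍ → ℂ) (j : ℕ) (γ : SL(2, ℤ)) :
    (A * F ^ j) ∣[k + (j : ℤ) * 2] γ = (A ∣[k] γ) * (F ∣[(2 : ℤ)] γ) ^ j :=
  slash_mul_pow k 2 (h := (Matrix.SpecialLinearGroup.mapGL ℝ γ : GL (Fin 2) ℝ))
    (Subgroup.HasDetPlusMinusOne.abs_det (Γ := 𝒮ℒ) ⟨γ, rfl⟩) A F j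

/-- If `F` satisfies a monic equation whose coefficients are level one invariant of the right
weights, then so does every `SL(2,ℤ)`-translate of `F`. -/
theorem monic_slash {d : ℕ} {c : ℕ → ℍ → ℂ} {F : ℍ → ℂ}
    (hc : ∀ s, s < d → ∀ γ : SL(2, ℤ), (c s) ∣[((s + 1 : ℕ) : ℤ) * 2] γ = c s)
    (hF : F ^ d + ∑ s ∈ Finset.range d, c s * F ^ (d - 1 - s) = 0) (γ : SL(2, ℤ)) :
    (F ∣[(2 : ℤ)] γ) ^ d + ∑ s ∈ Finset.range d, c s * (F ∣[(2 : ℤ)] γ) ^ (d - 1 - s) = 0 := by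
  have h := congrArg (fun G : ℍ → ℂ => G ∣[(d : ℤ) * 2] γ) hF
  simp only [SlashAction.add_slash, SlashAction.sum_slash, SlashAction.zero_slash] at h
  rw [slash_pow_SL] at h
  rw [← h]
  congr 1
  refine Finset.sum_congr rfl fun s hs => ?_
  rw [Finset.mem_range] at hs
  have hw : (d : ℤ) * 2 = ((s + 1 : ℕ) : ℤ) * 2 + ((d - 1 - s : ℕ) : ℤ) * 2 := by
    have : ((d - 1 - s : ℕ) : ℤ) = (d : ℤ) - 1 - s := by omega
    rw [this]; push_cast; ring
  rw [hw, slash_mul_pow_SL, hc s hs]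

theorem tendsto_zero_of_monic {d : ℕ} {c : ℕ → ℍ → ℂ} {G : ℍ → ℂ}
    (hc : ∀ s, s < d → IsZeroAtImInfty (c s))
    (hG : ∀ z, G z ^ d + ∑ s ∈ Finset.range d, c s z * G z ^ (d - 1 - s) = 0) :
    IsZeroAtImInfty G := by
  have hS : Tendsto (fun z => ∑ s ∈ Finset.range d, ‖c s z‖) atImInfty (𝓝 0) := by
    have : Tendsto (fun z => ∑ s ∈ Finset.range d, ‖c s z‖) atImInfty
        (𝓝 (∑ _s ∈ Finset.range d, (0 : ℝ))) :=
      tendsto_finsetSum _ fun s hs => by
        have := (hc s (Finset.mem_range.mp hs)).norm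
        simpa using this
    simpa using this
  rw [IsZeroAtImInfty, ZeroAtFilter, tendsto_zero_iff_norm_tendsto_zero]
  rw [Metric.tendsto_nhds]
  intro ε hε
  have hε' : 0 < min ε 1 := lt_min hε one_pos
  have hev := (Metric.tendsto_nhds.mp hS) (min ε 1 ^ d) (pow_pos hε' d)
  filter_upwards [hev] with z hz
  rw [Real.dist_eq, sub_zero, abs_of_nonneg (Finset.sum_nonneg fun s _ => norm_nonneg _)] at hz
  have hle1 : ∑ s ∈ Finset.range d, ‖c s z‖ ≤ 1 :=
    hz.le.trans (pow_le_one₀ hε'.le (min_le_right _ _))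
  have hpow := norm_pow_le_of_monic_root (fun s => c s z) (G z) (hG z) hle1
  have hlt : ‖G z‖ ^ d < min ε 1 ^ d := lt_of_le_of_lt hpow hz
  have := lt_of_pow_lt_pow_left₀ d hε'.le hlt
  rw [Real.dist_eq, sub_zero, abs_of_nonneg (norm_nonneg _)]
  exact lt_of_lt_of_le this (min_le_left _ _)

/-- **Galois stability**: `S₂(Γ₀(N))` is stable under twisting `q`-expansions by any ring
endomorphism of `ℂ`. -/
theorem exists_twist (σ : ℂ →+* ℂ) (N : ℕ) [NeZero N]
    (f : CuspForm (CongruenceSubgroup.Gamma0 N) 2) :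
    ∃ f' : CuspForm (CongruenceSubgroup.Gamma0 N) 2,
      qExpansion 1 f' = (qExpansion 1 f).map σ := by
  classical
  have h1N := CongruenceSubgroup.one_mem_strictPeriods_Gamma0 N
  have hσ : Function.Injective (PowerSeries.map σ) := PowerSeries.map_injective σ σ.injective
  obtain ⟨k, Q, R, ⟨pQ, Q', pQ', iQ, eQ⟩, ⟨pR, R', pR', iR, eR⟩, hQ0, hfQ⟩ := exists_fraction σ N f
  obtain ⟨d, c, hd, hc, hmonic⟩ := exists_monic_eq N f
  have pf : PB (⇑f : ℍ → ℂ) := PB.of_modularForm h1N f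
  -- the twisted coefficients
  have hex : ∀ s, s < d → ∃ G' : CuspForm 𝒮ℒ (((s + 1 : ℕ) : ℤ) * 2),
      qExpansion 1 G' = (qExpansion 1 (c s)).map σ := fun s hs => by
    obtain ⟨G, hG⟩ := hc s hs
    obtain ⟨G', hG'⟩ := levelOne_twist_cusp σ _ G
    exact ⟨G', by rw [hG', hG]⟩
  choose G' hG' using hex
  let c' : ℕ → ℍ → ℂ := fun s => if h : s < d then ⇑(G' s h) else 0
  have hc'eq : ∀ s (hs : s < d), c' s = ⇑(G' s hs) := fun s hs => by simp [c', hs]
  have pc : ∀ s, s < d → PB (c s) := fun s hs => by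
    obtain ⟨G, hG⟩ := hc s hs
    rw [← hG]
    exact PB.of_modularForm one_mem_strictPeriods_SL G
  have pc' : ∀ s, s < d → PB (c' s) := fun s hs => by
    rw [hc'eq s hs]
    exact PB.of_modularForm one_mem_strictPeriods_SL (G' s hs)
  have ec' : ∀ s, s < d → qExpansion 1 (c' s) = (qExpansion 1 (c s)).map σ := fun s hs => by
    rw [hc'eq s hs, hG' s hs]
  -- the monic relation between `R` and `Q`
  have hE : monicExpr d c Q R = 0 := by
    funext z
    rw [monicExpr_apply, ← hfQ z, monic_scale, hmonic z, mul_zero]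
    rfl
  -- transport to the twists
  have hE' : monicExpr d c' Q' R' = 0 := by
    apply (PB.monicExpr pc' pQ' pR').eq_zero_of_qExp
    rw [qExp_monicExpr pc' pQ' pR', eR, eQ]
    have h0 := congrArg (PowerSeries.map σ) (qExp_monicExpr pc pQ pR)
    rw [hE, UpperHalfPlane.qExpansion_zero, map_zero, map_add, map_pow, map_sum] at h0
    rw [h0]
    congr 1
    refine Finset.sum_congr rfl fun s hs => ?_
    rw [map_mul, map_mul, map_pow, map_pow, ec' s (Finset.mem_range.mp hs)]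
  -- `Q' ≠ 0`
  have hQ'0 : Q' ≠ 0 := by
    intro h
    have : qExpansion 1 Q = 0 := by
      apply hσ
      rw [← eQ, h, UpperHalfPlane.qExpansion_zero, map_zero]
    exact pQ.qExp_ne_zero hQ0 this
  -- the bound
  have hcont : Continuous fun z : ℍ => max (1 : ℝ) (∑ s ∈ Finset.range d, ‖c' s z‖) := by
    refine continuous_const.max (continuous_finsetSum _ fun s hs => ?_)
    exact ((pc' s (Finset.mem_range.mp hs)).holo.continuous).norm
  have hroot : ∀ z, Q' z ≠ 0 → (R' z / Q' z) ^ d +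
      ∑ s ∈ Finset.range d, c' s z * (R' z / Q' z) ^ (d - 1 - s) = 0 := by
    intro z hz
    have h1 := congrFun hE' z
    rw [monicExpr_apply, show R' z = (R' z / Q' z) * Q' z by field_simp, monic_scale] at h1
    simpa [hz] using h1
  obtain ⟨F, hF, hFQ⟩ := exists_mdiff_quotient pR'.holo pQ'.holo hQ'0 hcont fun z hz =>
    norm_le_of_monic_root (fun s => c' s z) _ (hroot z hz)
  -- `F` satisfies the monic equation everywhere
  have hQd0 : Q' ^ d ≠ 0 := by
    obtain ⟨z₀, hz₀⟩ := Function.ne_iff.mp hQ'0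
    exact fun h => hz₀ (by
      have := congrFun h z₀
      simp only [Pi.pow_apply, Pi.zero_apply] at this
      exact pow_eq_zero_iff hd.ne' |>.mp this)
  have hFmonic : F ^ d + ∑ s ∈ Finset.range d, c' s * F ^ (d - 1 - s) = 0 := by
    refine eq_zero_of_mul_eq_zero_mdiff ?_ (pQ'.holo.pow d) hQd0 fun z => ?_
    · exact (hF.pow d).add (MDifferentiable.sum fun s hs =>
        (pc' s (Finset.mem_range.mp hs)).holo.mul (hF.pow _))
    · have h1 := congrFun hE' z
      rw [monicExpr_apply, ← hFQ z, monic_scale] at h1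
      simp only [Pi.add_apply, Pi.pow_apply, Finset.sum_apply, Pi.mul_apply]
      rw [mul_comm]
      exact h1
  -- invariance under `Γ₀(N)`
  have hinv : ∀ γ : SL(2, ℤ), γ ∈ CongruenceSubgroup.Gamma0 N → F ∣[(2 : ℤ)] γ = F := by
    intro γ hγ
    have hFQ' : F * Q' = R' := funext hFQ
    have h1 : (F ∣[(2 : ℤ)] γ) * Q' = F * Q' := by
      have h2 := congrArg (fun G : ℍ → ℂ => G ∣[(2 : ℤ) + k] γ) hFQ'
      simp only [ModularForm.mul_slash_SL2, iQ γ hγ] at h2
      rw [h2, hFQ', show (2 : ℤ) + k = k + 2 by ring, iR γ hγ]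
    have h3 : (F ∣[(2 : ℤ)] γ) - F = 0 := by
      refine eq_zero_of_mul_eq_zero_mdiff ((hF.slash 2 _).sub hF) pQ'.holo hQ'0 fun z => ?_
      have := congrFun h1 z
      simp only [Pi.mul_apply, Pi.sub_apply] at this ⊢
      rw [sub_mul, this, sub_self]
    exact sub_eq_zero.mp h3
  -- vanishing at the cusps
  have hinvc : ∀ s, s < d → ∀ γ : SL(2, ℤ), (c' s) ∣[((s + 1 : ℕ) : ℤ) * 2] γ = c' s := by
    intro s hs γ
    rw [hc'eq s hs]
    exact SlashInvariantFormClass.slash_action_eq (G' s hs) _ ⟨γ, rfl⟩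
  have hzero : ∀ γ : SL(2, ℤ), IsZeroAtImInfty (F ∣[(2 : ℤ)] γ) := by
    intro γ
    have hm := monic_slash hinvc hFmonic γ
    refine tendsto_zero_of_monic (c := c') (d := d) (fun s hs => ?_) fun z => ?_
    · rw [hc'eq s hs]
      have : Fact (IsCusp OnePoint.infty 𝒮ℒ) :=
        ⟨(𝒮ℒ).isCusp_of_mem_strictPeriods one_pos one_mem_strictPeriods_SL⟩
      exact CuspFormClass.zero_at_infty (G' s hs)
    · have := congrFun hm z
      simpa [Finset.sum_apply] using this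
  -- package
  let f' : CuspForm (CongruenceSubgroup.Gamma0 N) 2 :=
    { toFun := F
      slash_action_eq' := by
        rintro g ⟨γ, hγ, rfl⟩
        exact hinv γ hγ
      holo' := hF
      zero_at_cusps' := by
        intro c hc
        rw [Subgroup.IsArithmetic.isCusp_iff_isCusp_SL2Z] at hc
        rw [OnePoint.isZeroAt_iff_forall_SL2Z hc]
        intro γ _
        exact hzero γ }
  refine ⟨f', ?_⟩
  have pF : PB F := PB.of_modularForm h1N f'
  have hqQ' : qExpansion 1 Q' ≠ 0 := pQ'.qExp_ne_zero hQ'0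
  have e1 : qExpansion 1 F * qExpansion 1 Q' = (qExpansion 1 f).map σ * qExpansion 1 Q' := by
    rw [← qExp_mul pF pQ', show F * Q' = R' from funext hFQ, eR, eQ, ← map_mul,
      ← qExp_mul pf pQ, show (⇑f : ℍ → ℂ) * Q = R from funext hfQ]
  exact mul_right_cancel₀ hqQ' e1

end

end Fermat.Agent.S23
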