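import Mathlib
import Fermat.Prelude.Thm_ModularForm_sturm_bound_Gamma0
import Fermat.Agent.S23.Twist
import Fermat.Agent.S23.Descent
import Fermat.Agent.S23.Integral

set_option autoImplicit false

namespace Fermat.Agent.S23

open UpperHalfPlane hiding I
open Complex Filter ModularForm ModularFormClass
open scoped MatrixGroups ModularForm Topology Manifold

noncomputable section

/-- The `q`-expansion map `S₂(Γ₀(N)) → ℂ^ℕ`. -/
def qcMap (N : ℕ) : CuspForm (CongruenceSubgroup.Gamma0 N) 2 →ₗ[ℂ] (ℕ → ℂ) :=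
  LinearMap.pi fun n => qc N n

theorem qcMap_apply (N : ℕ) (g : CuspForm (CongruenceSubgroup.Gamma0 N) 2) (n : ℕ) :
    qcMap N g n = qCoeff g n := rfl

theorem eq_zero_of_qc_eq_zero (N : ℕ) [NeZero N] (g : CuspForm (CongruenceSubgroup.Gamma0 N) 2)
    (h : ∀ n, n ≤ ((2 : ℤ) * (CongruenceSubgroup.Gamma0 N).index).toNat / 12 → qCoeff g n = 0) :
    g = 0 := by
  have h0 := ModularForm.sturm_bound_Gamma0 N (ModularFormClass.modularForm g) h
  ext z
  have := congrArg (fun G : ModularForm (CongruenceSubgroup.Gamma0 N) 2 => G z) h0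
  simpa using this

theorem qcMap_injective (N : ℕ) [NeZero N] : Function.Injective (qcMap N) := by
  rw [← LinearMap.ker_eq_bot, LinearMap.ker_eq_bot']
  intro g hg
  exact eq_zero_of_qc_eq_zero N g fun n _ => congrFun hg n

/-- `S₂(Γ₀(N))` is spanned by forms with rational `q`-expansion. -/
theorem rational_span (N : ℕ) [NeZero N] :
    Submodule.span ℂ {f : CuspForm (CongruenceSubgroup.Gamma0 N) 2 |
      ∀ n, ∃ r : ℚ, qCoeff f n = (r : ℂ)} = ⊤ := by
  set Rt : Set (CuspForm (CongruenceSubgroup.Gamma0 N) 2) :=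
    {f | ∀ n, ∃ r : ℚ, qCoeff f n = (r : ℂ)} with hRt
  set W : Submodule ℂ (ℕ → ℂ) := LinearMap.range (qcMap N) with hW
  have hstable : ∀ σ : ℂ ≃+* ℂ, ∀ v ∈ W, (fun n => σ (v n)) ∈ W := by
    rintro σ v ⟨g, rfl⟩
    obtain ⟨g', hg'⟩ := exists_twist (σ : ℂ →+* ℂ) N g
    refine ⟨g', ?_⟩
    funext n
    rw [qcMap_apply, qcMap_apply]
    change (qExpansion 1 g').coeff n = σ ((qExpansion 1 g).coeff n)
    rw [hg', PowerSeries.coeff_map]
    rfl
  have hsep : ∀ v ∈ W, (∀ j ∈ Finset.range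
      (((2 : ℤ) * (CongruenceSubgroup.Gamma0 N).index).toNat / 12 + 1), v j = 0) → v = 0 := by
    rintro v ⟨g, rfl⟩ h
    have : g = 0 := eq_zero_of_qc_eq_zero N g fun n hn =>
      h n (Finset.mem_range.mpr (Nat.lt_succ_of_le hn))
    rw [this, map_zero]
  have hle := descent_span_aux _ W hstable hsep
  have hsub : {v | v ∈ W ∧ ∀ n, ∃ r : ℚ, v n = (r : ℂ)} ⊆ (qcMap N) '' Rt := by
    rintro v ⟨⟨g, rfl⟩, hr⟩
    exact ⟨g, hr, rfl⟩
  rw [eq_top_iff]
  intro g _
  have h1 : qcMap N g ∈ Submodule.span ℂ ((qcMap N) '' Rt) :=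
    Submodule.span_mono hsub (hle ⟨g, rfl⟩)
  rw [← Submodule.map_span] at h1
  obtain ⟨g₁, hg₁, hg₁'⟩ := h1
  rwa [← qcMap_injective N hg₁']

theorem hasIntegralStructure (N : ℕ) [NeZero N] : CuspForm.HasIntegralStructure N 2 := by
  rw [CuspForm.HasIntegralStructure, eq_top_iff, ← rational_span N]
  refine Submodule.span_le.mpr fun g hg => ?_
  obtain ⟨D, hD0, hD⟩ := exists_int_smul_integral N g hg
  have hmem : ((D : ℂ) • g) ∈ (CuspForm.intLattice N 2 :
      Set (CuspForm (CongruenceSubgroup.Gamma0 N) 2)) :=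
    Submodule.subset_span hD
  have hDc : (D : ℂ) ≠ 0 := by exact_mod_cast hD0
  have : g = (D : ℂ)⁻¹ • ((D : ℂ) • g) := by rw [smul_smul, inv_mul_cancel₀ hDc, one_smul]
  rw [this]
  exact Submodule.smul_mem _ _ (Submodule.subset_span hmem)

end

end Fermat.Agent.S23
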